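import Fermat.Agent.DedekindPrimeIdeals.Shift

/-!
# The prime ideal theorem with the classical error term, uniform in the field

By monotonicity the moments give `ψ_K x = x - x ^ β / β + O (L₀ ^ 3 x exp (- c gauge x))`, the
second term only if `ζ_K` has the exceptional zero `β`.
-/

set_option autoImplicit false
set_option linter.style.haveILetI false

noncomputable section

universe u

open NumberField Module Finset
open FA.DedekindZF
open scoped Real Classical ArithmeticFunction.vonMangoldt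

namespace FA.DedekindPIT

variable (K : Type u) [Field K] [NumberField K]

/-- `ψ_K`. -/
def psiK (x : ℝ) : ℝ := ∑ n ∈ Icc 1 ⌊x⌋₊, mangoldtK K n

/-- A sum with nonnegative weights. -/
def partialSum (f : ℕ → ℝ) (x : ℝ) : ℝ := ∑ n ∈ Icc 1 ⌊x⌋₊, f n

/-- Its moment. -/
def momentSum (f : ℕ → ℝ) (x : ℝ) : ℝ := ∑ n ∈ Icc 1 ⌊x⌋₊, f n * (x - n)

theorem momentSum_sub_bounds {f : ℕ → ℝ} (hf : ∀ n, 1 ≤ n → 0 ≤ f n) {u v : ℝ} (hu : 0 ≤ u) (huv : u ≤ v) :
    (v - u) * partialSum f u ≤ momentSum f v - momentSum f u ∧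
      momentSum f v - momentSum f u ≤ (v - u) * partialSum f v := by
  have hp : ∀ z, 0 ≤ z → z ≤ v → momentSum f z = ∑ n ∈ Icc 1 ⌊v⌋₊, f n * max (z - n) 0 := by
    intro z hz hzv
    rw [momentSum, ← sum_subset (Icc_subset_Icc_right (Nat.floor_mono hzv))
      (f := fun n : ℕ => f n * max (z - n) 0) fun n hn hn' => ?_]
    · refine sum_congr rfl fun n hn => ?_
      rw [mem_Icc] at hn
      rw [max_eq_left (sub_nonneg.2 ((Nat.cast_le.2 hn.2).trans (Nat.floor_le hz)))]
    · rw [mem_Icc] at hn hn'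
      have : z < n := Nat.lt_of_floor_lt (by omega)
      rw [max_eq_right (by linarith), mul_zero]
  rw [hp v (hu.trans huv) le_rfl, hp u hu huv, ← sum_sub_distrib]
  simp_rw [← mul_sub]
  constructor
  · rw [partialSum, mul_sum]
    refine le_trans (le_of_eq (sum_congr rfl fun n hn => ?_))
      (sum_le_sum_of_subset_of_nonneg (Icc_subset_Icc_right (Nat.floor_mono huv)) fun n hn _ => ?_)
    · rw [mem_Icc] at hn
      have : (n : ℝ) ≤ u := (Nat.cast_le.2 hn.2).trans (Nat.floor_le hu)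
      rw [max_eq_left (by linarith), max_eq_left (by linarith)]
      ring
    · exact mul_nonneg (hf n (mem_Icc.1 hn).1) (sub_nonneg.2 (max_le_max_right _ (by linarith)))
  · rw [partialSum, mul_sum]
    refine sum_le_sum fun n hn => ?_
    rw [mem_Icc] at hn
    have : (n : ℝ) ≤ v := (Nat.cast_le.2 hn.2).trans (Nat.floor_le (hu.trans huv))
    rw [mul_comm (v - u)]
    refine mul_le_mul_of_nonneg_left ?_ (hf n hn.1)
    rw [max_eq_left (by linarith : (0 : ℝ) ≤ v - n)]
    linarith [le_max_left (u - n) 0]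

theorem partialSum_sub_le {w : ℕ → ℝ} (hw : ∀ n, 1 ≤ n → w n ≤ 1) {u v : ℝ} (hu : 0 ≤ u) (huv : u ≤ v) :
    partialSum w v - partialSum w u ≤ v - u + 1 := by
  have hmono := Nat.floor_mono huv
  rw [partialSum, partialSum, ← sum_sdiff (Icc_subset_Icc_right hmono), add_sub_cancel_right]
  refine (sum_le_card_nsmul _ _ 1 fun n hn => hw n (mem_Icc.1 (mem_sdiff.1 hn).1).1).trans ?_
  rw [card_sdiff_of_subset (Icc_subset_Icc_right hmono), Nat.card_Icc, Nat.card_Icc, Nat.add_sub_cancel,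
    Nat.add_sub_cancel, nsmul_eq_mul, mul_one, Nat.cast_sub hmono]
  have := Nat.floor_le (hu.trans huv)
  have := Nat.lt_floor_add_one u
  linarith

theorem partialSum_mono {f : ℕ → ℝ} (hf : ∀ n, 1 ≤ n → 0 ≤ f n) {u v : ℝ} (huv : u ≤ v) :
    partialSum f u ≤ partialSum f v :=
  sum_le_sum_of_subset_of_nonneg (Icc_subset_Icc_right (Nat.floor_mono huv))
    fun n hn _ => hf n (mem_Icc.1 hn).1

/-- Upwards. -/
theorem desmooth_up {f w : ℕ → ℝ} (hf : ∀ n, 1 ≤ n → 0 ≤ f n) (hw0 : ∀ n, 1 ≤ n → 0 ≤ w n)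
    (hw : ∀ n, 1 ≤ n → w n ≤ 1) {x h B : ℝ} (hx : 0 ≤ x) (hh : 0 < h)
    (hB : ∀ z, x ≤ z → z ≤ x + h → |momentSum f z - momentSum w z| ≤ B) :
    partialSum f x ≤ partialSum w x + h + 1 + 2 * B / h := by
  have g0 := abs_le.1 (hB x le_rfl (by linarith))
  have gp := abs_le.1 (hB (x + h) (by linarith) le_rfl)
  have u1 := (momentSum_sub_bounds hf hx (show x ≤ x + h by linarith)).1
  have u2 := (momentSum_sub_bounds hw0 hx (show x ≤ x + h by linarith)).2
  have u3 := mul_le_mul_of_nonneg_left (partialSum_sub_le hw hx (show x ≤ x + h by linarith)) hh.le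
  refine le_of_mul_le_mul_left ?_ hh
  have : h * (2 * B / h) = 2 * B := by field_simp
  linarith

/-- Downwards. -/
theorem desmooth_down {f w : ℕ → ℝ} (hf : ∀ n, 1 ≤ n → 0 ≤ f n) (hw0 : ∀ n, 1 ≤ n → 0 ≤ w n)
    (hw : ∀ n, 1 ≤ n → w n ≤ 1) {x h B : ℝ} (hh : 0 < h) (hhx : h ≤ x)
    (hB : ∀ z, x - h ≤ z → z ≤ x → |momentSum f z - momentSum w z| ≤ B) :
    partialSum w x ≤ partialSum f x + h + 1 + 2 * B / h := by
  have g0 := abs_le.1 (hB x (by linarith) le_rfl)
  have gm := abs_le.1 (hB (x - h) le_rfl (by linarith))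
  have u1 := (momentSum_sub_bounds hw0 (show 0 ≤ x - h by linarith) (show x - h ≤ x by linarith)).1
  have u2 := (momentSum_sub_bounds hf (show 0 ≤ x - h by linarith) (show x - h ≤ x by linarith)).2
  have u3 := mul_le_mul_of_nonneg_left
    (partialSum_sub_le hw (show 0 ≤ x - h by linarith) (show x - h ≤ x by linarith)) hh.le
  refine le_of_mul_le_mul_left ?_ hh
  have : h * (2 * B / h) = 2 * B := by field_simp
  linarith

variable {K} in
/-- The gauge does not vary much. -/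
theorem gauge_near {x z : ℝ} (hx : 4 ≤ x) (h1 : x / 2 ≤ z) (h2 : z ≤ 2 * x) :
    gauge K x / 4 ≤ gauge K z := by
  have hlx : 0 ≤ Real.log x := Real.log_nonneg (by linarith)
  have hl2 : Real.log 4 = 2 * Real.log 2 := by
    rw [show (4 : ℝ) = 2 ^ 2 by norm_num, Real.log_pow]; norm_num
  have h4 : Real.log 4 ≤ Real.log x := Real.log_le_log (by norm_num) hx
  have hlo : Real.log x / 2 ≤ Real.log z := by
    have := Real.log_le_log (by linarith) h1
    rw [Real.log_div (by linarith) two_ne_zero] at this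
    linarith
  have hhi : Real.log z ≤ 4 * Real.log x := by
    have := Real.log_le_log (by linarith : 0 < z) h2
    rw [Real.log_mul two_ne_zero (by linarith)] at this
    linarith
  have hD : gaugeD K z ≤ 2 * gaugeD K x := by
    have hn : (0 : ℝ) ≤ finrank ℚ K := Nat.cast_nonneg _
    have hd : 0 ≤ Real.log (((discr K).natAbs : ℕ) : ℝ) :=
      Real.log_nonneg (Nat.one_le_cast.2 (Int.natAbs_pos.2 (discr_ne_zero K)))
    have hs : √(finrank ℚ K * Real.log z) ≤ 2 * √(finrank ℚ K * Real.log x) := by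
      rw [← Real.sqrt_sq (show (0 : ℝ) ≤ 2 by norm_num), ← Real.sqrt_mul (by norm_num)]
      refine Real.sqrt_le_sqrt ?_
      nlinarith [mul_le_mul_of_nonneg_left hhi hn]
    rw [gaugeD, gaugeD]
    linarith
  have := one_le_gaugeD K x
  have := one_le_gaugeD K z
  rw [gauge, gauge, div_div, div_le_div_iff₀ (by linarith) (by linarith)]
  nlinarith [mul_le_mul_of_nonneg_right hlo (show 0 ≤ gaugeD K x by linarith),
    mul_le_mul_of_nonneg_left hD hlx]

theorem gauge_nonneg {x : ℝ} (hx : 1 ≤ x) : 0 ≤ gauge K x :=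
  div_nonneg (Real.log_nonneg hx) (zero_le_one.trans (one_le_gaugeD K x))

theorem gauge_le_log {x : ℝ} (hx : 1 ≤ x) : gauge K x ≤ Real.log x :=
  div_le_self (Real.log_nonneg hx) (one_le_gaugeD K x)

theorem psiK_le {x : ℝ} (hx : 0 ≤ x) : psiK K x ≤ finrank ℚ K * ((Real.log 4 + 4) * x) := by
  refine (sum_le_sum fun n _ => mangoldtK_le K n).trans ?_
  rw [← mul_sum]
  refine mul_le_mul_of_nonneg_left (le_of_eq_of_le ?_ (Chebyshev.psi_le_const_mul_self hx))
    (Nat.cast_nonneg _)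
  rw [Chebyshev.psi]
  rfl

/-- **`ψ_K` against the main sum.** -/
theorem exists_psiK_sub_le : ∃ c C : ℝ, 0 < c ∧ c ≤ 1 ∧ 0 ≤ C ∧
    ∀ (K : Type u) [Field K] [NumberField K] (g : ℂ → ℂ) (w : ℕ → ℝ) (r : ℂ → ℂ),
      MainTerm K g w r → ∀ x : ℝ, 2 ≤ x →
        |psiK K x - partialSum w x| ≤ C * height K 0 ^ 3 * (x * Real.exp (-(c * gauge K x))) := by
  obtain ⟨a, C, ha, ha1, hC, hmom⟩ := exists_moment_le.{u}
  obtain ⟨B₀, hB₀⟩ : ∃ B, B = Real.log 4 + 4 := ⟨_, rfl⟩
  have hB0 : 0 ≤ B₀ := hB₀ ▸ add_nonneg (Real.log_nonneg (by norm_num)) (by norm_num)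
  refine ⟨a / 8, 16 * C + 8 + (B₀ + 1) * Real.exp 1, by positivity, by linarith, by positivity,
    fun K _ _ g w r hM x hx => ?_⟩
  have hx0 : 0 < x := by linarith
  have hf : ∀ n, 1 ≤ n → 0 ≤ mangoldtK K n := fun n _ => mangoldtK_nonneg K n
  obtain ⟨η, hη⟩ : ∃ η, η = Real.exp (-(a / 8 * gauge K x)) := ⟨_, rfl⟩
  rw [← hη]
  have hη0 : 0 < η := hη ▸ Real.exp_pos _
  have hH := one_le_height K 0
  have hH3 : 1 ≤ height K 0 ^ 3 := one_le_pow₀ hH
  have hxη : 1 ≤ x * η := by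
    rw [hη, ← Real.exp_log hx0, ← Real.exp_add, Real.exp_log hx0]
    refine Real.one_le_exp ?_
    have h1 := gauge_le_log K (x := x) (by linarith)
    have h2 := gauge_nonneg K (x := x) (by linarith)
    nlinarith
  obtain ⟨P, hP⟩ : ∃ P, P = x * η := ⟨_, rfl⟩
  rw [← hP] at hxη
  rw [← hP]
  have hP0 : 0 ≤ P := by linarith
  obtain ⟨H, hHdef⟩ : ∃ H, H = height K 0 ^ 3 := ⟨_, rfl⟩
  rw [← hHdef] at hH3 ⊢
  have hq1 : 0 ≤ (B₀ + 1) * Real.exp 1 * H * P := by positivity
  have hq2 : 0 ≤ C * H * P := by positivity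
  have hHP : P ≤ H * P := le_mul_of_one_le_left hP0 hH3
  have hW0 : 0 ≤ partialSum w x := sum_nonneg fun n hn => hM.zero_le n (mem_Icc.1 hn).1
  have hW1 : partialSum w x ≤ x := by
    refine (sum_le_card_nsmul _ _ 1 fun n hn => hM.le_one n (mem_Icc.1 hn).1).trans ?_
    rw [Nat.card_Icc, Nat.add_sub_cancel, nsmul_eq_mul, mul_one]
    exact Nat.floor_le hx0.le
  have hψ0 : 0 ≤ psiK K x := sum_nonneg fun n _ => mangoldtK_nonneg K n
  change |partialSum (mangoldtK K) x - partialSum w x| ≤ _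
  change 0 ≤ partialSum (mangoldtK K) x at hψ0
  rcases lt_or_ge x 6 with hx6 | hx6
  · have hsmall : 1 ≤ Real.exp 1 * η := by
      rw [hη, ← Real.exp_add]
      refine Real.one_le_exp ?_
      have := gauge_le_log K (x := x) (by linarith)
      have := gauge_nonneg K (x := x) (by linarith)
      have h6 : Real.log x ≤ 5 := by linarith [Real.log_le_sub_one_of_pos hx0]
      nlinarith
    have hup : partialSum (mangoldtK K) x ≤ B₀ * H * x := by
      refine (psiK_le K hx0.le).trans ?_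
      rw [← hB₀, hHdef, ← mul_assoc, mul_comm (finrank ℚ K : ℝ) B₀, mul_assoc, mul_assoc]
      refine mul_le_mul_of_nonneg_left (mul_le_mul_of_nonneg_right ?_ hx0.le) hB0
      exact (finrank_le_height K 0).trans (le_self_pow₀ hH (by norm_num))
    have h5 : (B₀ + 1) * H * x ≤ (B₀ + 1) * Real.exp 1 * H * P :=
      calc (B₀ + 1) * H * x = (B₀ + 1) * H * x * 1 := (mul_one _).symm
        _ ≤ (B₀ + 1) * H * x * (Real.exp 1 * η) := mul_le_mul_of_nonneg_left hsmall (by positivity)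
        _ = _ := by rw [hP]; ring
    have h6 : 0 ≤ B₀ * H * x := by positivity
    have h7 : x ≤ H * x := le_mul_of_one_le_left hx0.le hH3
    rw [abs_le]
    constructor <;> nlinarith
  have hgap : ∀ z, x / 2 ≤ z → z ≤ 2 * x →
      |momentSum (mangoldtK K) z - momentSum w z| ≤ 4 * C * H * x ^ 2 * (η * η) := fun z hz hz' => by
    have h := hmom K g w r hM z (by linarith)
    rw [← hHdef] at h
    rw [momentSum, momentSum, ← sum_sub_distrib]
    simp only [← sub_mul]
    refine h.trans ?_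
    have he : Real.exp (-(a * gauge K z)) ≤ η * η := by
      rw [hη, ← Real.exp_add]
      refine Real.exp_le_exp.2 ?_
      have := mul_le_mul_of_nonneg_left (gauge_near (K := K) (by linarith) hz hz') ha.le
      linarith
    have hz2 : z ^ 2 ≤ 4 * x ^ 2 := by nlinarith
    calc C * H * z ^ 2 * Real.exp (-(a * gauge K z)) ≤ C * H * (4 * x ^ 2) * (η * η) := by gcongr
      _ = _ := by ring
  rcases lt_or_ge (1 / 2) η with hbig | hsm
  · have hxP : x ≤ 2 * P := by rw [hP]; nlinarith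
    have hup := desmooth_up hf hM.zero_le hM.le_one hx0.le hx0
      (fun z h1 h2 => hgap z (by linarith) (by linarith))
    have e : 2 * (4 * C * H * x ^ 2 * (η * η)) / x = 8 * C * H * (P * η) := by
      rw [hP]; field_simp; ring
    have hη1 : η ≤ 1 := hη ▸ Real.exp_le_one_iff.2 (neg_nonpos.2
      (mul_nonneg (by positivity) (gauge_nonneg K (by linarith))))
    have : 8 * C * H * (P * η) ≤ 8 * C * H * P :=
      mul_le_mul_of_nonneg_left (mul_le_of_le_one_right hP0 hη1) (by positivity)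
    rw [e] at hup
    rw [abs_le]
    constructor <;> nlinarith
  obtain ⟨h, hh⟩ : ∃ h, h = x * η := ⟨_, rfl⟩
  have hh0 : 0 < h := hh ▸ mul_pos hx0 hη0
  have hhx : h ≤ x / 2 := by rw [hh]; nlinarith
  have e : 2 * (4 * C * H * x ^ 2 * (η * η)) / h = 8 * C * H * P := by
    rw [hh, hP]; field_simp; ring
  have hup := desmooth_up hf hM.zero_le hM.le_one hx0.le hh0
    (fun z h1 h2 => hgap z (by linarith) (by linarith))
  have hdown := desmooth_down (x := x) hf hM.zero_le hM.le_one hh0 (by linarith)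
    (fun z h1 h2 => hgap z (by linarith) (by linarith))
  rw [e] at hup hdown
  have hhP : h = P := by rw [hh, hP]
  rw [abs_le]
  constructor <;> nlinarith

/-- `∑_{n ≤ x} n ^ (β - 1)`. -/
theorem sum_rpow_near {β x : ℝ} (h0 : 0 < β) (h1 : β ≤ 1) (hx : 0 ≤ x) :
    |∑ n ∈ Icc 1 ⌊x⌋₊, (n : ℝ) ^ (β - 1) - x ^ β / β| ≤ 1 / β := by
  have key : ∀ N : ℕ, ((N : ℝ) + 1) ^ β - 1 ≤ β * ∑ n ∈ Icc 1 N, (n : ℝ) ^ (β - 1) ∧
      β * ∑ n ∈ Icc 1 N, (n : ℝ) ^ (β - 1) ≤ (N : ℝ) ^ β := fun N => by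
    induction N with
    | zero => simp [Real.zero_rpow h0.ne']
    | succ k ih =>
      rw [sum_Icc_succ_top (by omega), mul_add]
      push_cast
      obtain ⟨p, q⟩ := ih
      have hm : (0 : ℝ) < (k : ℝ) + 1 := by positivity
      have bern : ∀ s : ℝ, -1 ≤ s / ((k : ℝ) + 1) →
          ((k : ℝ) + 1 + s) ^ β ≤ ((k : ℝ) + 1) ^ β + β * s * ((k : ℝ) + 1) ^ (β - 1) := fun s hs => by
        rw [show ((k : ℝ) + 1 + s) = ((k : ℝ) + 1) * (1 + s / ((k : ℝ) + 1)) by field_simp,
          Real.mul_rpow hm.le (by linarith)]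
        refine (mul_le_mul_of_nonneg_left (rpow_one_add_le_one_add_mul_self hs h0.le h1)
          (Real.rpow_nonneg hm.le _)).trans (le_of_eq ?_)
        rw [Real.rpow_sub_one hm.ne']
        field_simp
      have b1 := bern 1 (le_trans (by norm_num) (by positivity : (0 : ℝ) ≤ 1 / ((k : ℝ) + 1)))
      have b2 := bern (-1) (by
        rw [le_div_iff₀ hm]
        linarith [(Nat.cast_nonneg k : (0 : ℝ) ≤ k)])
      rw [show (k : ℝ) + 1 + -1 = k by ring] at b2
      constructor <;> linarith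
  obtain ⟨p, q⟩ := key ⌊x⌋₊
  have h3 : x ^ β ≤ ((⌊x⌋₊ : ℝ) + 1) ^ β := Real.rpow_le_rpow hx (Nat.lt_floor_add_one x).le h0.le
  have h4 : (⌊x⌋₊ : ℝ) ^ β ≤ x ^ β := Real.rpow_le_rpow (Nat.cast_nonneg _) (Nat.floor_le hx) h0.le
  have e : ∑ n ∈ Icc 1 ⌊x⌋₊, (n : ℝ) ^ (β - 1) - x ^ β / β =
      (β * ∑ n ∈ Icc 1 ⌊x⌋₊, (n : ℝ) ^ (β - 1) - x ^ β) / β := by field_simp
  rw [e, abs_div, abs_of_pos h0]
  refine div_le_div_of_nonneg_right (abs_le.2 ⟨by linarith, by linarith⟩) h0.le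

theorem one_le_main {c x : ℝ} (hc : c ≤ 1) (hx : 1 ≤ x) :
    1 ≤ height K 0 ^ 3 * (x * Real.exp (-(c * gauge K x))) := by
  refine one_le_mul_of_one_le_of_one_le (one_le_pow₀ (one_le_height K 0)) ?_
  rw [← Real.exp_log (zero_lt_one.trans_le hx), ← Real.exp_add, Real.exp_log (zero_lt_one.trans_le hx)]
  refine Real.one_le_exp ?_
  have h1 := gauge_le_log K hx
  have h2 := gauge_nonneg K hx
  nlinarith

/-- **The prime ideal theorem, uniform in the field.** -/
theorem exists_psiK_error : ∃ c C : ℝ, 0 < c ∧ c ≤ 1 ∧ 0 ≤ C ∧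
    ∀ (K : Type u) [Field K] [NumberField K] (E : ℂ → ℂ), Differentiable ℂ E →
      (∀ s : ℂ, 1 < s.re → E s = (s - 1) * dedekindZeta K s) → ∀ x : ℝ, 2 ≤ x →
        ((∀ β : ℝ, 1 - zfrC / height K 0 ≤ β → E (β : ℂ) ≠ 0) →
          |psiK K x - x| ≤ C * height K 0 ^ 3 * (x * Real.exp (-(c * gauge K x)))) ∧
        ∀ β : ℝ, 1 - zfrC / height K 0 ≤ β → E (β : ℂ) = 0 →
          |psiK K x - (x - x ^ β / β)| ≤ C * height K 0 ^ 3 * (x * Real.exp (-(c * gauge K x))) := by
  obtain ⟨c, C, hc, hc1, hC, h⟩ := exists_psiK_sub_le.{u}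
  refine ⟨c, C + 3, hc, hc1, by linarith, fun K _ _ E hE hEL x hx => ⟨fun hno => ?_, fun β hβ h0 => ?_⟩⟩
  · have hM := mainTerm_plain hE hEL fun z hz h0 => by
      obtain ⟨him, -, -⟩ := zero_free hE hEL h0 hz
      refine hno z.re (by rwa [him] at hz) ?_
      rwa [show ((z.re : ℝ) : ℂ) = z from Complex.ext rfl (by simpa using him.symm)]
    have h1 := h K E _ _ hM x hx
    have h2 : |partialSum (fun _ => 1) x - x| ≤ 1 := by
      rw [partialSum, sum_const, Nat.card_Icc, Nat.add_sub_cancel, nsmul_eq_mul, mul_one, abs_le]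
      have := Nat.floor_le (show 0 ≤ x by linarith)
      have := Nat.lt_floor_add_one x
      constructor <;> linarith
    have h3 := one_le_main K hc1 (show 1 ≤ x by linarith)
    refine (abs_sub_le _ (partialSum (fun _ => 1) x) _).trans ?_
    linarith
  · have hM := mainTerm_exceptional hE hEL hβ h0
    have h1 := h K _ _ _ hM x hx
    have hβ1 : β ≤ 1 := not_lt.1 fun hlt => cleared_ne_zero hE hEL (by simpa using hlt.le) h0
    have hβ0 : 3 / 4 ≤ β := by
      have := div_le_self zfrC_pos.le (one_le_height K 0)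
      linarith [zfrC_le]
    have h2 := sum_rpow_near (show 0 < β by linarith) hβ1 (show 0 ≤ x by linarith)
    have h4 : 1 / β ≤ 2 := by rw [div_le_iff₀ (by linarith)]; linarith
    have h5 : |partialSum (fun n => 1 - (n : ℝ) ^ (β - 1)) x - (x - x ^ β / β)| ≤ 3 := by
      rw [partialSum, sum_sub_distrib, sum_const, Nat.card_Icc, Nat.add_sub_cancel, nsmul_eq_mul, mul_one]
      rw [abs_le] at h2 ⊢
      have := Nat.floor_le (show 0 ≤ x by linarith)
      have := Nat.lt_floor_add_one x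
      constructor <;> linarith
    have h3 := one_le_main K hc1 (show 1 ≤ x by linarith)
    refine (abs_sub_le _ (partialSum (fun n => 1 - (n : ℝ) ^ (β - 1)) x) _).trans ?_
    linarith

end FA.DedekindPIT
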