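import Fermat.Agent.DedekindPrimeIdeals.Psi
import Fermat.Agent.StarkEffective.Main
import Fermat.Agent.Root.SummaryStarkLowerBound

/-!
# The exceptional zero of a Galois field keeps its distance from `1`

For `K` Galois over `ℚ` the exceptional zero `β` is one of a quadratic subfield, so
`1 - β ≥ exp (- 9 L)`, `L = 1 + log |d| + 2 n`, with no constant left over; hence
`ψ_K x ≥ exp (- 9 L) x / 2` as soon as `log x ≥ A n L ^ 2`, `A` absolute.
-/

set_option autoImplicit false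
set_option linter.style.haveILetI false

noncomputable section

universe u

open NumberField Module
open FA.DedekindZF FA.HeckeBS FA.StarkZero
open scoped Real Classical

namespace FA.DedekindPIT

variable (K : Type u) [Field K] [NumberField K]

/-- `1 + log |d| + 2 n`. -/
def sizeL : ℝ := 1 + Real.log (((discr K).natAbs : ℕ) : ℝ) + 2 * finrank ℚ K

theorem three_le_sizeL : 3 ≤ sizeL K := by
  have hD : 0 ≤ Real.log (((discr K).natAbs : ℕ) : ℝ) :=
    Real.log_nonneg (Nat.one_le_cast.2 (Int.natAbs_pos.2 (discr_ne_zero K)))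
  have hn : (1 : ℝ) ≤ finrank ℚ K := Nat.one_le_cast.2 finrank_pos
  rw [sizeL]; linarith

theorem height_zero_le_sizeL : height K 0 ≤ sizeL K := by
  rw [FA.DedekindZF.height, abs_zero, zero_add, sizeL]
  have h3 : Real.log 3 ≤ 2 := by linarith [Real.log_le_sub_one_of_pos (show (0 : ℝ) < 3 by norm_num)]
  have := mul_le_mul_of_nonneg_left h3 (Nat.cast_nonneg (finrank ℚ K) : (0 : ℝ) ≤ _)
  linarith

variable {K}

/-- **The distance of the exceptional zero from `1`.** -/
theorem exp_neg_le_one_sub [IsGalois ℚ K] {E : ℂ → ℂ} (hE : Differentiable ℂ E)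
    (hEL : ∀ s : ℂ, 1 < s.re → E s = (s - 1) * dedekindZeta K s) {β : ℝ}
    (hβ : 1 - zfrC / height K 0 ≤ β) (h0 : E (β : ℂ) = 0) :
    Real.exp (-(9 * sizeL K)) ≤ 1 - β := by
  have hβ1 : β < 1 := not_le.1 fun h => cleared_ne_zero hE hEL (by simpa using h) h0
  have hβ0 : 3 / 4 ≤ β := by
    have := div_le_self zfrC_pos.le (one_le_height K 0)
    linarith [zfrC_le]
  obtain ⟨-, hder, -⟩ := zero_free hE hEL h0 (by simpa using hβ)
  obtain ⟨Q, hQ, hz⟩ := FA.Summary.heilbronn_simple_zero K hE hEL (by linarith) hβ1 h0 hder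
  obtain ⟨E', hE', hEL', -⟩ := FA.ZetaDivisibility.exists_zeta_cleared Q
  have hzQ := (FA.Summary.stark_xiFun_eq_zero_iff Q hE' hEL'
    (s := (β : ℂ)) (by simpa using (show 0 < β by linarith))).1.2 (hz E' hE' hEL')
  have hxQ : xiR Q β = 0 := by rwa [xiFun_ofReal, Complex.ofReal_eq_zero] at hzQ
  have h1 := FA.StarkEff.polarR_le_of_zero Q (show 1 / 2 ≤ β by linarith) hβ1.le hxQ
  rw [hQ] at h1
  have h2 : (1 : ℝ) / 32 ≤ polarR Q := by
    have hq := FA.StarkEff.quarter_le_hR Q hQ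
    rw [hR_eq] at hq
    have hw : (Units.torsionOrder Q : ℝ) ≤ 8 := by
      have := FA.ConductorDiscr.torsionOrder_le Q
      rw [hQ] at this
      exact_mod_cast this
    have hp := polarR_pos Q
    have h3 : polarR Q * Units.torsionOrder Q / 2 ^ (InfinitePlace.nrRealPlaces Q +
        InfinitePlace.nrComplexPlaces Q) ≤ polarR Q * 8 :=
      (div_le_self (by positivity) (one_le_pow₀ one_le_two)).trans (mul_le_mul_of_nonneg_left hw hp.le)
    linarith
  obtain ⟨hsq, hsz⟩ := FA.StarkEff.sqrt_discr_quadratic_le K hQ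
  have hD : 0 ≤ Real.log (((discr K).natAbs : ℕ) : ℝ) :=
    Real.log_nonneg (Nat.one_le_cast.2 (Int.natAbs_pos.2 (discr_ne_zero K)))
  have hn : (1 : ℝ) ≤ finrank ℚ K := Nat.one_le_cast.2 finrank_pos
  have hd : |((discr K : ℤ) : ℝ)| ^ (1 / (finrank ℚ K : ℝ)) ≤ Real.exp (sizeL K) := by
    have e : |((discr K : ℤ) : ℝ)| = (((discr K).natAbs : ℕ) : ℝ) := by
      rw [← Int.cast_abs, ← Int.natCast_natAbs, Int.cast_natCast]
    rw [e, Real.rpow_def_of_pos (Nat.cast_pos.2 (Int.natAbs_pos.2 (discr_ne_zero K)))]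
    refine Real.exp_le_exp.2 ((mul_le_of_le_one_right hD ?_).trans ?_)
    · rw [div_le_one (by linarith)]; exact hn
    · rw [sizeL]; linarith
  have hLQ : size Q ≤ Real.exp (sizeL K) := by
    have : size K ≤ sizeL K := by rw [size, sizeL]; linarith
    linarith [Real.add_one_le_exp (sizeL K)]
  have hLQ0 := one_le_size (K := Q)
  have h256 : (256 : ℝ) ≤ Real.exp (2 * sizeL K) := by
    refine le_trans ?_ (Real.exp_le_exp.2 (show (6 : ℝ) ≤ 2 * sizeL K by linarith [three_le_sizeL K]))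
    calc (256 : ℝ) ≤ 2.7 ^ 6 := by norm_num
      _ ≤ Real.exp 1 ^ 6 := pow_le_pow_left₀ (by norm_num) (by linarith [Real.exp_one_gt_d9]) 6
      _ = _ := by rw [← Real.exp_nat_mul]; norm_num
  have hδ : 0 ≤ 1 - β := by linarith
  obtain ⟨Z, hZ⟩ : ∃ Z, Z = Real.exp (sizeL K) := ⟨_, rfl⟩
  rw [← hZ] at hd hLQ
  have hZ1 : 1 ≤ Z := hZ ▸ Real.one_le_exp (by linarith [three_le_sizeL K])
  have h3 : 1 / 32 ≤ (1 - β) * (8 * Z ^ 3) := by
    refine h2.trans (h1.trans (mul_le_mul_of_nonneg_left ?_ hδ))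
    calc 2 * Real.sqrt |((discr Q : ℤ) : ℝ)| * (2 * size Q) ^ 2
        ≤ 2 * Z * (2 * Z) ^ 2 := by
          refine mul_le_mul (mul_le_mul_of_nonneg_left (hsq.trans hd) zero_le_two)
            (pow_le_pow_left₀ (by linarith) (by linarith) 2) (by positivity) (by linarith)
      _ = _ := by ring
  have e : Real.exp (-(9 * sizeL K)) * (256 * Z ^ 3) ≤ 1 := by
    rw [hZ, ← Real.exp_nat_mul]
    calc Real.exp (-(9 * sizeL K)) * (256 * Real.exp ((3 : ℕ) * sizeL K))
        ≤ Real.exp (-(9 * sizeL K)) * (Real.exp (2 * sizeL K) * Real.exp ((3 : ℕ) * sizeL K)) := by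
          gcongr
      _ ≤ 1 := by
          rw [← Real.exp_add, ← Real.exp_add]
          refine Real.exp_le_one_iff.2 ?_
          push_cast
          linarith [three_le_sizeL K]
  have hZ3 : 0 < 256 * Z ^ 3 := by positivity
  refine le_of_mul_le_mul_right ?_ hZ3
  linarith

/-- `1 - x^(β-1)/β ≥ 1 - β` from `log x ≥ 10`. -/
theorem main_ge {δ x : ℝ} (hδ : 0 < δ) (hδ1 : δ ≤ 1 / 8) (hx : 0 < x) (hl : 10 ≤ Real.log x) :
    x * δ ≤ x - x ^ (1 - δ) / (1 - δ) := by
  obtain ⟨y, hy⟩ : ∃ y, y = δ * Real.log x := ⟨_, rfl⟩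
  have hy0 : 0 ≤ y := hy ▸ mul_nonneg hδ.le (by linarith)
  have hexp : x ^ (1 - δ) * (1 + y) ≤ x := by
    rw [Real.rpow_def_of_pos hx]
    refine (mul_le_mul_of_nonneg_left ((add_comm (1 : ℝ) y).le.trans (Real.add_one_le_exp y))
      (Real.exp_pos _).le).trans (le_of_eq ?_)
    rw [← Real.exp_add, show Real.log x * (1 - δ) + y = Real.log x by rw [hy]; ring, Real.exp_log hx]
  have h1 : 0 < 1 - δ := by linarith
  have h2 : x ^ (1 - δ) ≤ x * (1 - δ) ^ 2 := by
    refine le_of_mul_le_mul_right (hexp.trans ?_) (show 0 < 1 + y by linarith)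
    have h10 : 10 * δ ≤ y := hy ▸ (mul_comm (10 : ℝ) δ).le.trans (mul_le_mul_of_nonneg_left hl hδ.le)
    have : 1 ≤ (1 - δ) ^ 2 * (1 + y) := by
      refine le_trans ?_ (mul_le_mul_of_nonneg_left (show 1 + 10 * δ ≤ 1 + y by linarith) (sq_nonneg _))
      nlinarith [mul_le_mul_of_nonneg_left hδ1 hδ.le, pow_pos hδ 3]
    calc x = x * 1 := (mul_one x).symm
      _ ≤ x * ((1 - δ) ^ 2 * (1 + y)) := mul_le_mul_of_nonneg_left this hx.le
      _ = _ := by ring
  have h3 : x ^ (1 - δ) / (1 - δ) ≤ x * (1 - δ) := by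
    rw [div_le_iff₀ h1]; linarith
  linarith

/-- **`ψ_K` is large beyond `exp (A n L ^ 2)`.** -/
theorem exists_psiK_ge : ∃ A : ℝ, 100 ≤ A ∧
    ∀ (K : Type u) [Field K] [NumberField K] [IsGalois ℚ K] (x : ℝ),
      A * finrank ℚ K * sizeL K ^ 2 ≤ Real.log x → 0 < x →
        Real.exp (-(9 * sizeL K)) * x / 2 ≤ psiK K x := by
  obtain ⟨c, C, hc, -, hC, h⟩ := exists_psiK_error.{u}
  refine ⟨max 100 ((2 * (13 + C) / c) ^ 2), le_max_left _ _, fun K _ _ _ x hA hx => ?_⟩
  obtain ⟨E, hE, hEL, -⟩ := FA.ZetaDivisibility.exists_zeta_cleared K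
  obtain ⟨A, hA'⟩ : ∃ A, A = max 100 ((2 * (13 + C) / c) ^ 2) := ⟨_, rfl⟩
  rw [← hA'] at hA
  have hA100 : 100 ≤ A := hA' ▸ le_max_left _ _
  have hAc : (2 * (13 + C) / c) ^ 2 ≤ A := hA' ▸ le_max_right _ _
  have hn : (1 : ℝ) ≤ finrank ℚ K := Nat.one_le_cast.2 finrank_pos
  have hL := three_le_sizeL K
  obtain ⟨L, hLdef⟩ : ∃ L, L = sizeL K := ⟨_, rfl⟩
  obtain ⟨n, hndef⟩ : ∃ n : ℝ, n = (finrank ℚ K : ℝ) := ⟨_, rfl⟩
  rw [← hLdef] at hL hA ⊢
  rw [← hndef] at hA hn
  have hnL : 9 ≤ n * L ^ 2 := by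
    nlinarith [mul_le_mul_of_nonneg_right hn (sq_nonneg L)]
  have hl : 10 ≤ Real.log x := by nlinarith
  have hx2 : 2 ≤ x := by
    have := Real.log_le_sub_one_of_pos hx
    linarith
  -- the gauge
  have hU : (13 + C) / c * L ≤ gauge K x := by
    obtain ⟨r, hr⟩ : ∃ r, r = √(n * Real.log x) := ⟨_, rfl⟩
    have hr0 : 0 ≤ r := hr ▸ Real.sqrt_nonneg _
    have hr2 : r * r = n * Real.log x := hr ▸ Real.mul_self_sqrt (by positivity)
    have hq : 2 * (13 + C) / c * (n * L) ≤ r := by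
      rw [hr]
      refine Real.le_sqrt_of_sq_le ?_
      calc (2 * (13 + C) / c * (n * L)) ^ 2 = (2 * (13 + C) / c) ^ 2 * n * L ^ 2 * n := by ring
        _ ≤ A * n * L ^ 2 * n := by gcongr
        _ ≤ Real.log x * n := mul_le_mul_of_nonneg_right hA (by linarith)
        _ = _ := mul_comm _ _
    have hLr : L ≤ r := by
      rw [hr]
      refine Real.le_sqrt_of_sq_le ?_
      have h1 : L ^ 2 ≤ Real.log x := by
        nlinarith [mul_le_mul hA100 hn zero_le_one (by linarith : (0 : ℝ) ≤ A), sq_nonneg L]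
      nlinarith
    rw [gauge, gaugeD, ← sizeL, ← hLdef, ← hndef, ← hr, le_div_iff₀ (by linarith)]
    have hk : 0 ≤ (13 + C) / c := by positivity
    have h2 : (13 + C) / c * L * (L + r) ≤ 2 * (13 + C) / c * L * r := by
      have := mul_le_mul_of_nonneg_left (show L + r ≤ 2 * r by linarith) (mul_nonneg hk (by linarith : 0 ≤ L))
      calc _ ≤ (13 + C) / c * L * (2 * r) := this
        _ = _ := by ring
    refine h2.trans (le_of_mul_le_mul_left ?_ (show 0 < n by linarith))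
    calc n * (2 * (13 + C) / c * L * r) = 2 * (13 + C) / c * (n * L) * r := by ring
      _ ≤ r * r := mul_le_mul_of_nonneg_right hq hr0
      _ = n * Real.log x := hr2
  have herr : C * height K 0 ^ 3 * (x * Real.exp (-(c * gauge K x))) ≤ Real.exp (-(9 * L)) * x / 2 := by
    have h1 : (13 + C) * L ≤ c * gauge K x := by
      have := mul_le_mul_of_nonneg_left hU hc.le
      rwa [← mul_assoc, mul_div_cancel₀ _ hc.ne'] at this
    have hH : height K 0 ^ 3 ≤ Real.exp (3 * L) := by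
      rw [show 3 * L = ((3 : ℕ) : ℝ) * L by norm_num, Real.exp_nat_mul]
      exact pow_le_pow_left₀ (zero_le_one.trans (one_le_height K 0))
        ((height_zero_le_sizeL K).trans (by rw [hLdef]; linarith [Real.add_one_le_exp (sizeL K)])) 3
    have h2C : 2 * C ≤ Real.exp (C * L + L) := by
      refine le_trans ?_ (Real.add_one_le_exp _)
      nlinarith [mul_le_mul_of_nonneg_left hL hC]
    calc C * height K 0 ^ 3 * (x * Real.exp (-(c * gauge K x)))
        ≤ Real.exp (C * L + L) / 2 * Real.exp (3 * L) * (x * Real.exp (-((13 + C) * L))) := by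
          refine mul_le_mul (mul_le_mul (by linarith) hH
            (pow_nonneg (zero_le_one.trans (one_le_height K 0)) 3) (by positivity))
            (mul_le_mul_of_nonneg_left (Real.exp_le_exp.2 (by linarith)) hx.le) (by positivity) (by positivity)
      _ = x / 2 * (Real.exp (C * L + L) * Real.exp (3 * L) * Real.exp (-((13 + C) * L))) := by ring
      _ = _ := by rw [← Real.exp_add, ← Real.exp_add]; ring_nf
  have hmain : ∀ M : ℝ, Real.exp (-(9 * L)) * x ≤ M →
      |psiK K x - M| ≤ C * height K 0 ^ 3 * (x * Real.exp (-(c * gauge K x))) →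
      Real.exp (-(9 * L)) * x / 2 ≤ psiK K x := fun M hM he => by
    have := (abs_le.1 he).1
    linarith
  by_cases hno : ∀ β : ℝ, 1 - zfrC / height K 0 ≤ β → E (β : ℂ) ≠ 0
  · refine hmain x (mul_le_of_le_one_left hx.le (Real.exp_le_one_iff.2 (by linarith))) ?_
    exact (h K E hE hEL x hx2).1 hno
  · push Not at hno
    obtain ⟨β, hβ, h0⟩ := hno
    have hlow := exp_neg_le_one_sub hE hEL hβ h0
    rw [← hLdef] at hlow
    have hδ1 : 1 - β ≤ 1 / 8 := by
      have := div_le_self zfrC_pos.le (one_le_height K 0)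
      linarith [zfrC_le]
    have hm := main_ge (lt_of_lt_of_le (Real.exp_pos _) hlow) hδ1 hx hl
    rw [sub_sub_cancel] at hm
    refine hmain _ (le_trans ?_ hm) ((h K E hE hEL x hx2).2 β hβ h0)
    rw [mul_comm x]
    exact mul_le_mul_of_nonneg_right hlow hx.le

end FA.DedekindPIT
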