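import Fermat.Agent.DedekindPrimeIdeals.Psi

/-!
# From `ψ_K` to `θ_K` and `π_K`

`π_K x = ∫_2^x (1 - t ^ (β - 1)) / log t + O (L₀ ^ 3 x exp (- c gauge x))`, the term in `β` only
with an exceptional zero.
-/

set_option autoImplicit false
set_option linter.style.haveILetI false

noncomputable section

universe u

open NumberField IsDedekindDomain Module Finset Ideal MeasureTheory
open FA.DedekindZF FA.Hecke FA.PrimeIdeal
open scoped Real Classical ArithmeticFunction.vonMangoldt

namespace FA.DedekindPIT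

variable (K : Type u) [Field K] [NumberField K]

/-- `θ_K`. -/
def thetaK (x : ℝ) : ℝ :=
  wSum (fun v : HeightOneSpectrum (𝓞 K) => Real.log (absNorm v.asIdeal)) x

/-- `π_K`, the primes of norm at most `x`. -/
def piK (x : ℝ) : ℝ := ((primesLE K ⌊x⌋₊).card : ℝ)

/-- The primes of norm `n`, with their logarithms. -/
def primeLog (n : ℕ) : ℝ :=
  ∑ v ∈ (primesLE K n).filter (fun v => absNorm v.asIdeal = n), Real.log (absNorm v.asIdeal)

theorem primesLE_fiber {n m : ℕ} (h : n ≤ m) :
    (primesLE K m).filter (fun v => absNorm v.asIdeal = n) =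
      (primesLE K n).filter (fun v => absNorm v.asIdeal = n) := by
  ext v
  simp only [Finset.mem_filter, mem_primesLE]
  constructor <;> rintro ⟨-, h2⟩ <;> exact ⟨h2 ▸ (by first | exact le_rfl | exact h), h2⟩

theorem thetaK_eq_sum (x : ℝ) : thetaK K x = ∑ n ∈ Icc 1 ⌊x⌋₊, primeLog K n := by
  rw [thetaK, wSum_fiberwise]
  refine sum_congr rfl fun n hn => ?_
  rw [primeLog, primesLE_fiber K (mem_Icc.1 hn).2]

theorem thetaK_le_psiK (x : ℝ) : thetaK K x ≤ psiK K x := by
  rw [thetaK_eq_sum, psiK]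
  refine sum_le_sum fun n _ => le_trans (le_of_eq (sum_congr rfl fun v _ => (one_mul _).symm))
    (sum_le_fiberSum (w := fun _ => (1 : ℝ)) (fun _ => zero_le_one) (fun _ => le_rfl) _
      fun v hv => (Finset.mem_filter.1 hv).2)

theorem mangoldtK_eq_of_prime {p : ℕ} (hp : p.Prime) : mangoldtK K p = primeLog K p := by
  have h1 : mangoldtK K p = ∑ C : ClassGroup (𝓞 K), mangoldtC C p := by
    unfold mangoldtK fiberSum mangoldtC
    rw [← Summable.tsum_finsetSum fun C _ => summable_classWeight C p]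
    refine tsum_congr fun q => ?_
    rw [one_mul]
    unfold classWeight
    rw [Finset.sum_ite_eq]
    simp
  rw [h1, primeLog, Finset.sum_filter, ← sum_classes]
  refine sum_congr rfl fun C _ => ?_
  rw [mangoldtC_eq_of_prime C hp le_rfl, Finset.sum_filter]

theorem psiK_sub_thetaK_le {x : ℝ} (hx : 1 ≤ x) :
    psiK K x - thetaK K x ≤ finrank ℚ K * (2 * √x * Real.log x) := by
  refine le_trans ?_ (mul_le_mul_of_nonneg_left
    ((le_abs_self _).trans (Chebyshev.abs_psi_sub_theta_le_sqrt_mul_log hx)) (Nat.cast_nonneg _))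
  rw [thetaK_eq_sum, psiK, Chebyshev.psi, Chebyshev.theta, Finset.sum_filter, ← sum_sub_distrib,
    ← sum_sub_distrib, mul_sum]
  refine sum_le_sum fun n _ => ?_
  by_cases hp : n.Prime
  · rw [mangoldtK_eq_of_prime K hp, sub_self]
    simp [hp, ArithmeticFunction.vonMangoldt_apply_prime hp]
  · have h : 0 ≤ primeLog K n := sum_nonneg fun _ _ => Real.log_natCast_nonneg _
    simp only [hp, if_false, sub_zero]
    linarith [mangoldtK_le K n]

/-- Partial summation. -/
theorem piK_eq {x : ℝ} (hx : 2 ≤ x) :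
    piK K x = thetaK K x / Real.log x + ∫ t in (2 : ℝ)..x, thetaK K t / (t * Real.log t ^ 2) := by
  have h0 : primeLog K 0 = 0 := Finset.sum_eq_zero fun v hv => by
    simp [(Finset.mem_filter.1 hv).2]
  have h1 : primeLog K 1 = 0 := Finset.sum_eq_zero fun v hv => by
    simp [(Finset.mem_filter.1 hv).2]
  have hθ : ∀ t : ℝ, ∑ k ∈ Icc 0 ⌊t⌋₊, primeLog K k = thetaK K t := fun t => by
    rw [thetaK_eq_sum, ← sum_subset (s₁ := Icc 1 ⌊t⌋₊) (Icc_subset_Icc_left zero_le_one)
      fun k hk hk' => by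
        rw [mem_Icc] at hk hk'
        rw [show k = 0 by omega, h0]]
  have hcard : piK K x = ∑ n ∈ Icc 0 ⌊x⌋₊, (Real.log n)⁻¹ * primeLog K n := by
    rw [piK, Finset.cast_card, ← sum_fiberwise_of_maps_to (t := Icc 0 ⌊x⌋₊)
      (g := fun v : HeightOneSpectrum (𝓞 K) => absNorm v.asIdeal)
      fun v hv => mem_Icc.2 ⟨Nat.zero_le _, mem_primesLE.1 hv⟩]
    refine sum_congr rfl fun n hn => ?_
    rw [primeLog, ← primesLE_fiber K (mem_Icc.1 hn).2, mul_sum]
    refine sum_congr rfl fun v hv => ?_
    rw [← (Finset.mem_filter.1 hv).2, inv_mul_cancel₀]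
    exact (Real.log_pos (Nat.one_lt_cast.2 (FA.Ext.two_le_absNorm v))).ne'
  rw [hcard, sum_mul_eq_sub_integral_mul₁ (primeLog K) (f := fun t => (Real.log t)⁻¹) h0 h1,
    ← intervalIntegral.integral_of_le hx, hθ]
  · have e : ∫ t in (2 : ℝ)..x, deriv (fun t => (Real.log t)⁻¹) t * ∑ k ∈ Icc 0 ⌊t⌋₊, primeLog K k =
        ∫ t in (2 : ℝ)..x, -(thetaK K t / (t * Real.log t ^ 2)) :=
      intervalIntegral.integral_congr fun t _ => by
        show deriv (fun t => (Real.log t)⁻¹) t * ∑ k ∈ Icc 0 ⌊t⌋₊, primeLog K k = _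
        rw [hθ, Real.deriv_inv_log_apply]
        ring
    rw [e, intervalIntegral.integral_neg]
    ring
  · intro z ⟨_, _⟩
    have : z ≠ 0 := by linarith
    have : Real.log z ≠ 0 := by apply Real.log_ne_zero_of_pos_of_ne_one <;> linarith
    fun_prop
  · refine ContinuousOn.integrableOn_Icc fun z ⟨_, _⟩ ↦ ContinuousWithinAt.congr ?_
      (fun _ _ ↦ Real.deriv_inv_log_apply) Real.deriv_inv_log_apply
    have : z ≠ 0 := by linarith
    have : Real.log z ^ 2 ≠ 0 := by
      refine pow_ne_zero 2 <| Real.log_ne_zero_of_pos_of_ne_one ?_ ?_ <;> linarith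
    exact ContinuousAt.continuousWithinAt <| by fun_prop

theorem intervalIntegrable_thetaK {x : ℝ} (hx : 2 ≤ x) :
    IntervalIntegrable (fun t => thetaK K t / (t * Real.log t ^ 2)) volume 2 x := by
  rw [intervalIntegrable_iff_integrableOn_Icc_of_le hx]
  refine (integrableOn_mul_sum_Icc (c := primeLog K) (m := 1) (g := fun t => (t * Real.log t ^ 2)⁻¹)
    zero_le_two ?_).congr_fun (fun t _ => by
      show (t * Real.log t ^ 2)⁻¹ * _ = _
      rw [thetaK_eq_sum, div_eq_inv_mul]) measurableSet_Icc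
  refine ContinuousOn.integrableOn_Icc fun t ht => ContinuousAt.continuousWithinAt ?_
  have : t ≠ 0 := by linarith [ht.1]
  have : t * Real.log t ^ 2 ≠ 0 :=
    mul_ne_zero this (pow_ne_zero 2 (Real.log_pos (by linarith [ht.1])).ne')
  fun_prop

variable {K}

/-- From `θ_K` to `π_K` for any main term. -/
theorem piK_sub_le {M m : ℝ → ℝ} {B c : ℝ} (hB : 0 ≤ B) (hc : 0 ≤ c) (hc1 : c ≤ 1 / 4)
    (hM : ∀ t : ℝ, 2 ≤ t → HasDerivAt M (m t) t) (hm : ContinuousOn m (Set.Ici 2))
    (hM2 : |M 2| ≤ B) (hθ : ∀ t : ℝ, 2 ≤ t → |thetaK K t - M t| ≤ B * (t * Real.exp (-(c * gauge K t))))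
    {x : ℝ} (hx : 2 ≤ x) :
    |piK K x - ∫ t in (2 : ℝ)..x, m t / Real.log t| ≤ 12 * B * (x * Real.exp (-(c / 2 * gauge K x))) := by
  have hx0 : 0 < x := by linarith
  obtain ⟨E, hE⟩ : ∃ E, E = Real.exp (-(c / 2 * gauge K x)) := ⟨_, rfl⟩
  rw [← hE]
  have hE0 : 0 < E := hE ▸ Real.exp_pos _
  have hl2 : 0.69 < Real.log 2 := lt_trans (by norm_num) Real.log_two_gt_d9
  have hg0 := gauge_nonneg K (show 1 ≤ x by linarith)
  have hgl := gauge_le_log K (show 1 ≤ x by linarith)
  have hne : ∀ t ∈ Set.uIcc 2 x, 2 ≤ t ∧ t ≠ 0 ∧ Real.log t ≠ 0 := fun t ht => by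
    rw [Set.uIcc_of_le hx] at ht
    exact ⟨ht.1, by linarith [ht.1], (Real.log_pos (by linarith [ht.1])).ne'⟩
  have hcont : ContinuousOn (fun t => Real.log t) (Set.uIcc 2 x) :=
    fun t ht => (Real.continuousAt_log (hne t ht).2.1).continuousWithinAt
  have i1 : IntervalIntegrable (fun t => m t / Real.log t) volume 2 x :=
    ((hm.mono fun t ht => (hne t ht).1).div hcont fun t ht => (hne t ht).2.2).intervalIntegrable
  have i2 : IntervalIntegrable (fun t => M t / (t * Real.log t ^ 2)) volume 2 x := by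
    refine ContinuousOn.intervalIntegrable ?_
    refine (ContinuousOn.div (fun t ht => ((hM t (hne t ht).1).continuousAt).continuousWithinAt)
      (continuousOn_id.mul (hcont.pow 2)) fun t ht => ?_)
    exact mul_ne_zero (hne t ht).2.1 (pow_ne_zero 2 (hne t ht).2.2)
  have hparts : ∫ t in (2 : ℝ)..x, m t / Real.log t =
      M x / Real.log x - M 2 / Real.log 2 + ∫ t in (2 : ℝ)..x, M t / (t * Real.log t ^ 2) := by
    have hd : ∀ t ∈ Set.uIcc 2 x, HasDerivAt (fun u => M u / Real.log u)
        (m t / Real.log t - M t / (t * Real.log t ^ 2)) t := fun t ht => by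
      obtain ⟨h2, ht0, hl⟩ := hne t ht
      refine ((hM t h2).div (Real.hasDerivAt_log ht0) hl).congr_deriv ?_
      field_simp
    have := intervalIntegral.integral_eq_sub_of_hasDerivAt hd (i1.sub i2)
    rw [intervalIntegral.integral_sub i1 i2] at this
    linarith
  have i3 := intervalIntegrable_thetaK K hx
  have hint : |(∫ t in (2 : ℝ)..x, thetaK K t / (t * Real.log t ^ 2)) -
      ∫ t in (2 : ℝ)..x, M t / (t * Real.log t ^ 2)| ≤ 5 * B * (x * E) := by
    rw [← intervalIntegral.integral_sub i3 i2, ← Real.norm_eq_abs]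
    have hg : IntervalIntegrable (fun t : ℝ => B / Real.log 2 ^ 2 * (√x * E * t ^ (-(1 / 2) : ℝ)))
        volume 2 x :=
      ((intervalIntegral.intervalIntegrable_rpow' (by norm_num)).const_mul _).const_mul _
    refine (intervalIntegral.norm_integral_le_of_norm_le hx
      (Filter.Eventually.of_forall fun t ht => ?_) hg).trans ?_
    · have ht2 : 2 ≤ t := ht.1.le
      have ht0 : 0 < t := by linarith
      have hlt : Real.log 2 ≤ Real.log t := Real.log_le_log two_pos ht2
      have e1 : thetaK K t / (t * Real.log t ^ 2) - M t / (t * Real.log t ^ 2) =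
          (thetaK K t - M t) / (t * Real.log t ^ 2) := by ring
      have e2 : Real.exp (-(c * gauge K t)) ≤ √x * E * t ^ (-(1 / 2) : ℝ) := by
        rw [hE, Real.sqrt_eq_rpow, Real.rpow_def_of_pos hx0, Real.rpow_def_of_pos ht0, ← Real.exp_add,
          ← Real.exp_add]
        refine Real.exp_le_exp.2 ?_
        have hltx : Real.log t ≤ Real.log x := Real.log_le_log ht0 ht.2
        have hgt0 := gauge_nonneg K (show 1 ≤ t by linarith)
        rcases le_total (Real.log x / 2) (Real.log t) with h | h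
        · have hD : gaugeD K t ≤ gaugeD K x := by
            rw [gaugeD, gaugeD]
            gcongr
          have hh : gauge K x / 2 ≤ gauge K t := by
            have := one_le_gaugeD K t
            rw [gauge, gauge, div_right_comm]
            exact div_le_div₀ (by linarith) h (by linarith) hD
          have := mul_le_mul_of_nonneg_left hh hc
          linarith
        · have := mul_le_mul (show c / 2 ≤ 1 / 8 by linarith) hgl hg0 (by norm_num)
          have := mul_nonneg hc hgt0
          linarith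
      have hl0 : 0 < Real.log t := Real.log_pos (by linarith)
      rw [Real.norm_eq_abs, e1, abs_div, abs_of_pos (by positivity : 0 < t * Real.log t ^ 2)]
      calc |thetaK K t - M t| / (t * Real.log t ^ 2)
          ≤ B * (t * Real.exp (-(c * gauge K t))) / (t * Real.log t ^ 2) := by
            gcongr; exact hθ t ht2
        _ = B / Real.log t ^ 2 * Real.exp (-(c * gauge K t)) := by field_simp
        _ ≤ _ := mul_le_mul (by gcongr) e2 (Real.exp_pos _).le (by positivity)
    · rw [intervalIntegral.integral_const_mul, intervalIntegral.integral_const_mul,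
        integral_rpow (Or.inl (by norm_num))]
      norm_num
      rw [← Real.sqrt_eq_rpow, ← Real.sqrt_eq_rpow]
      have hss : √x * √x = x := Real.mul_self_sqrt hx0.le
      have h47 : B / Real.log 2 ^ 2 ≤ B * (5 / 2) := by
        rw [div_le_iff₀ (by positivity), mul_assoc]
        exact le_mul_of_one_le_right hB (by nlinarith)
      calc B / Real.log 2 ^ 2 * (√x * E * ((√x - √2) / (1 / 2)))
          = 2 * (B / Real.log 2 ^ 2) * (√x * √x * E) - 2 * (B / Real.log 2 ^ 2 * (√x * E) * √2) := by ring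
        _ ≤ 2 * (B / Real.log 2 ^ 2) * (x * E) := by
            rw [hss]
            linarith [show 0 ≤ B / Real.log 2 ^ 2 * (√x * E) * √2 by positivity]
        _ ≤ _ := by
            have := mul_le_mul_of_nonneg_right h47 (show 0 ≤ x * E by positivity)
            linarith
  have hxE : 1 ≤ x * E := by
    rw [hE, ← Real.exp_log hx0, ← Real.exp_add, Real.exp_log hx0]
    refine Real.one_le_exp ?_
    have := mul_le_mul (show c / 2 ≤ 1 by linarith) hgl hg0 zero_le_one
    linarith
  have hconst : |M 2 / Real.log 2| ≤ 2 * B * (x * E) := by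
    rw [abs_div, abs_of_pos (by linarith : 0 < Real.log 2), div_le_iff₀ (by linarith)]
    have h1 : B ≤ B * (x * E) := le_mul_of_one_le_right hB hxE
    have h2 := mul_le_mul_of_nonneg_left (show 1 ≤ 2 * Real.log 2 by linarith)
      (show 0 ≤ B * (x * E) by positivity)
    linarith
  have hlx : Real.log 2 ≤ Real.log x := Real.log_le_log two_pos hx
  have hmain : |(thetaK K x - M x) / Real.log x| ≤ 2 * B * (x * E) := by
    rw [abs_div, abs_of_pos (by linarith : 0 < Real.log x), div_le_iff₀ (by linarith)]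
    refine (hθ x hx).trans ?_
    have he : Real.exp (-(c * gauge K x)) ≤ E := by
      rw [hE]
      refine Real.exp_le_exp.2 ?_
      have := mul_nonneg hc hg0
      linarith
    have h1 := mul_le_mul_of_nonneg_left (mul_le_mul_of_nonneg_left he hx0.le) hB
    have h2 := mul_le_mul_of_nonneg_left (show 1 ≤ 2 * Real.log x by linarith)
      (show 0 ≤ B * (x * E) by positivity)
    linarith
  rw [piK_eq K hx, hparts]
  rw [sub_div] at hmain
  have hBxE : 0 ≤ B * (x * E) := by positivity
  rw [abs_le] at hint hmain hconst ⊢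
  constructor <;> linarith

/-- **`π_K` with the classical error term, uniform in the field.** -/
theorem exists_piK_error : ∃ c C : ℝ, 0 < c ∧ 0 ≤ C ∧
    ∀ (K : Type u) [Field K] [NumberField K] (E : ℂ → ℂ), Differentiable ℂ E →
      (∀ s : ℂ, 1 < s.re → E s = (s - 1) * dedekindZeta K s) → ∀ x : ℝ, 2 ≤ x →
        ((∀ β : ℝ, 1 - zfrC / height K 0 ≤ β → E (β : ℂ) ≠ 0) →
          |piK K x - ∫ t in (2 : ℝ)..x, 1 / Real.log t| ≤
            C * height K 0 ^ 3 * (x * Real.exp (-(c * gauge K x)))) ∧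
        ∀ β : ℝ, 1 - zfrC / height K 0 ≤ β → E (β : ℂ) = 0 →
          |piK K x - ∫ t in (2 : ℝ)..x, (1 - t ^ (β - 1)) / Real.log t| ≤
            C * height K 0 ^ 3 * (x * Real.exp (-(c * gauge K x))) := by
  obtain ⟨c, C, hc, hc1, hC, h⟩ := exists_psiK_error.{u}
  refine ⟨min c (1 / 4) / 2, 12 * (C + 8 + 6), by positivity, by positivity,
    fun K _ _ E hE hEL x hx => ?_⟩
  obtain ⟨e, he⟩ : ∃ e, e = min c (1 / 4) := ⟨_, rfl⟩
  rw [← he]
  have hec : e ≤ c := he ▸ min_le_left _ _
  have he4 : e ≤ 1 / 4 := he ▸ min_le_right _ _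
  have he0 : 0 ≤ e := he ▸ (lt_min hc (by norm_num)).le
  have hH := one_le_height K 0
  have hH3 : 1 ≤ height K 0 ^ 3 := one_le_pow₀ hH
  have hnH : (finrank ℚ K : ℝ) ≤ height K 0 ^ 3 :=
    (finrank_le_height K 0).trans (le_self_pow₀ hH (by norm_num))
  set H := height K 0 ^ 3
  have hθ : ∀ (M : ℝ → ℝ) (t : ℝ), 2 ≤ t →
      |psiK K t - M t| ≤ C * H * (t * Real.exp (-(c * gauge K t))) →
      |thetaK K t - M t| ≤ (C + 8 + 6) * H * (t * Real.exp (-(e * gauge K t))) := fun M t ht hψ => by
    have ht0 : 0 < t := by linarith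
    have hg0 := gauge_nonneg K (show 1 ≤ t by linarith)
    have hgl := gauge_le_log K (show 1 ≤ t by linarith)
    have h1 := psiK_sub_thetaK_le K (show 1 ≤ t by linarith)
    have h1' := thetaK_le_psiK K t
    have he1 : Real.exp (-(c * gauge K t)) ≤ Real.exp (-(e * gauge K t)) :=
      Real.exp_le_exp.2 (neg_le_neg (mul_le_mul_of_nonneg_right hec hg0))
    have he2 : 2 * √t * Real.log t ≤ 8 * (t * Real.exp (-(e * gauge K t))) := by
      have h2 := Real.log_le_rpow_div ht0.le (show (0 : ℝ) < 1 / 4 by norm_num)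
      have h3 : t ^ (-(1 / 4) : ℝ) ≤ Real.exp (-(e * gauge K t)) := by
        rw [Real.rpow_def_of_pos ht0]
        refine Real.exp_le_exp.2 ?_
        have := mul_le_mul he4 hgl hg0 (by norm_num : (0 : ℝ) ≤ 1 / 4)
        linarith
      calc 2 * √t * Real.log t ≤ 2 * √t * (t ^ (1 / 4 : ℝ) / (1 / 4)) :=
            mul_le_mul_of_nonneg_left h2 (by positivity)
        _ = 8 * (t ^ (1 / 2 : ℝ) * t ^ (1 / 4 : ℝ)) := by rw [Real.sqrt_eq_rpow]; ring
        _ = 8 * (t * t ^ (-(1 / 4) : ℝ)) := by
            rw [← Real.rpow_add ht0, ← Real.rpow_one_add' ht0.le (by norm_num)]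
            norm_num
        _ ≤ _ := by gcongr
    have a1 := mul_le_mul_of_nonneg_left he2 (Nat.cast_nonneg (finrank ℚ K) : (0 : ℝ) ≤ _)
    have a2 := mul_le_mul_of_nonneg_right hnH (show 0 ≤ 8 * (t * Real.exp (-(e * gauge K t))) by positivity)
    have a3 := mul_le_mul_of_nonneg_left (mul_le_mul_of_nonneg_left he1 ht0.le)
      (show 0 ≤ C * H by positivity)
    have a4 : 0 ≤ H * (t * Real.exp (-(e * gauge K t))) := by positivity
    refine (abs_sub_le _ (psiK K t) _).trans ?_
    rw [abs_sub_comm, abs_of_nonneg (by linarith)]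
    linarith
  have hB : 0 ≤ (C + 8 + 6) * H := by positivity
  refine ⟨fun hno => ?_, fun β hβ h0 => ?_⟩
  · refine (piK_sub_le (M := fun t => t) (m := fun _ => 1) hB he0 he4 (fun t _ => hasDerivAt_id' t)
      continuousOn_const ?_ (fun t ht => hθ (fun t => t) t ht ((h K E hE hEL t ht).1 hno)) hx).trans (le_of_eq ?_)
    · rw [abs_of_pos two_pos]; nlinarith
    · ring
  · have hβ1 : β ≤ 1 := not_lt.1 fun hlt => cleared_ne_zero hE hEL (by simpa using hlt.le) h0
    have hβ0 : 3 / 4 ≤ β := by
      have := div_le_self zfrC_pos.le (one_le_height K 0)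
      linarith [zfrC_le]
    refine (piK_sub_le (M := fun t => t - t ^ β / β) (m := fun t => 1 - t ^ (β - 1)) hB he0 he4
      (fun t ht => ?_) ?_ ?_ (fun t ht => hθ (fun t => t - t ^ β / β) t ht ((h K E hE hEL t ht).2 β hβ h0)) hx).trans
      (le_of_eq ?_)
    · refine ((hasDerivAt_id' t).sub (((Real.hasDerivAt_rpow_const
        (Or.inl (by linarith : t ≠ 0))).div_const β))).congr_deriv ?_
      field_simp
    · exact continuousOn_const.sub (continuousOn_id.rpow_const fun t ht =>
        Or.inl (ne_of_gt (lt_of_lt_of_le two_pos ht)))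
    · have h2 : (2 : ℝ) ^ β ≤ 2 := Real.rpow_le_self_of_one_le one_le_two hβ1
      have h3 : (2 : ℝ) ^ β / β ≤ 3 := by rw [div_le_iff₀ (by linarith)]; linarith
      have h4 : 0 ≤ (2 : ℝ) ^ β / β := by positivity
      rw [abs_le]
      constructor <;> nlinarith
    · ring

end FA.DedekindPIT
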