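import Fermat.Agent.DedekindPrimeIdeals.Exceptional
import Fermat.Agent.DedekindPrimeIdeals.Count

/-!
# An effective bound for the least prime splitting completely

In a Galois field of degree `n` some prime `p ≤ exp (A n L ^ 2)`, `A` absolute, does not divide the
discriminant and has `n` primes over it.
-/

set_option autoImplicit false
set_option linter.style.haveILetI false

noncomputable section

universe u

open NumberField IsDedekindDomain Module Finset Ideal
open FA.Hecke
open scoped Real Classical ArithmeticFunction.vonMangoldt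

namespace FA.DedekindPIT

variable (K : Type u) [Field K] [NumberField K]

/-- A prime of norm `p` in a Galois field makes an unramified `p` split completely. -/
theorem split_of_norm_prime [IsGalois ℚ K] {p : ℕ} (hp : p.Prime) (hd : ¬ (p : ℤ) ∣ discr K)
    (v : HeightOneSpectrum (𝓞 K)) (hv : absNorm v.asIdeal = p) :
    ((span {(p : ℤ)}).primesOver (𝓞 K)).ncard = finrank ℚ K := by
  have hprime : Prime (p : ℤ) := Nat.prime_iff_prime_int.1 hp
  set pZ := span {(p : ℤ)}
  haveI : pZ.IsMaximal := PrincipalIdealRing.isMaximal_of_irreducible hprime.irreducible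
  haveI : v.asIdeal.IsMaximal := v.isMaximal
  haveI : v.asIdeal.LiesOver pZ := (Ideal.liesOver_span_iff v.isPrime.ne_top hprime).mpr (by
    have := Ideal.absNorm_mem v.asIdeal
    rw [hv] at this
    simpa using this)
  have hf : v.asIdeal.inertiaDeg ℤ = 1 := by
    have h := Ideal.natAbs_pow_inertiaDeg (p : ℤ) v.asIdeal
    rw [hv, Int.natAbs_natCast] at h
    exact Nat.pow_right_injective hp.two_le (h.trans (pow_one p).symm)
  have he : v.asIdeal.ramificationIdx ℤ = 1 :=
    Ideal.ramificationIdx_eq_one_iff.mpr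
      ((NumberField.not_dvd_discr_iff_forall_liesOver K (𝓞 K) hprime).1 hd v.asIdeal v.isMaximal inferInstance)
  have h := Ideal.ncard_primesOver_mul_ramificationIdxIn_mul_inertiaDegIn pZ (𝓞 K) Gal(K/ℚ)
  rw [Ideal.ramificationIdxIn_eq_ramificationIdx pZ v.asIdeal Gal(K/ℚ),
    Ideal.inertiaDegIn_eq_inertiaDeg pZ v.asIdeal Gal(K/ℚ), he, hf, mul_one, mul_one,
    IsGalois.card_aut_eq_finrank] at h
  exact h

/-- The primes dividing the discriminant weigh at most `log |d|`. -/
theorem sum_log_dvd_discr_le (N : ℕ) :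
    ∑ p ∈ Icc 1 N, (if Nat.Prime p ∧ ((p : ℕ) : ℤ) ∣ discr K then Real.log (p : ℕ) else 0) ≤
      Real.log (((discr K).natAbs : ℕ) : ℝ) := by
  set S := (Icc 1 N).filter fun p : ℕ => p.Prime ∧ (p : ℤ) ∣ discr K
  rw [← Finset.sum_filter]
  have hdvd : ∏ p ∈ S, p ∣ (discr K).natAbs :=
    Finset.prod_primes_dvd _ (fun p hp => Nat.prime_iff.1 (Finset.mem_filter.1 hp).2.1)
      fun p hp => Int.natCast_dvd.1 (Finset.mem_filter.1 hp).2.2
  rw [← Real.log_prod fun p hp => Nat.cast_ne_zero.2 (Finset.mem_filter.1 hp).2.1.ne_zero, ← Nat.cast_prod]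
  exact Real.log_le_log (Nat.cast_pos.2 (Finset.prod_pos fun p hp => (Finset.mem_filter.1 hp).2.1.pos))
    (Nat.cast_le.2 (Nat.le_of_dvd (Int.natAbs_pos.2 (discr_ne_zero K)) hdvd))

/-- Without split primes up to `x` the function `ψ_K` is small. -/
theorem psiK_le_of_no_split [IsGalois ℚ K] {x : ℝ} (hx : 1 ≤ x)
    (hno : ∀ p : ℕ, p.Prime → (p : ℝ) ≤ x → ¬ (p : ℤ) ∣ discr K →
      ((span {(p : ℤ)}).primesOver (𝓞 K)).ncard ≠ finrank ℚ K) :
    psiK K x ≤ finrank ℚ K * (2 * √x * Real.log x + Real.log (((discr K).natAbs : ℕ) : ℝ)) := by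
  have hn0 : (0 : ℝ) ≤ finrank ℚ K := Nat.cast_nonneg _
  have key : ∀ n ∈ Icc 1 ⌊x⌋₊, mangoldtK K n ≤ finrank ℚ K * ((Λ n - if n.Prime then Real.log n else 0) +
      if n.Prime ∧ (n : ℤ) ∣ discr K then Real.log n else 0) := fun n hn => by
    by_cases hp : n.Prime
    · rw [if_pos hp, ArithmeticFunction.vonMangoldt_apply_prime hp, sub_self, zero_add]
      by_cases hd : (n : ℤ) ∣ discr K
      · rw [if_pos ⟨hp, hd⟩, ← ArithmeticFunction.vonMangoldt_apply_prime hp]
        exact mangoldtK_le K n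
      · rw [if_neg (fun h => hd h.2), mul_zero, mangoldtK_eq_of_prime K hp, primeLog]
        refine le_of_eq (Finset.sum_eq_zero fun v hv => absurd ?_ (hno n hp ?_ hd))
        · exact split_of_norm_prime K hp hd v (Finset.mem_filter.1 hv).2
        · exact (Nat.cast_le.2 (mem_Icc.1 hn).2).trans (Nat.floor_le (by linarith))
    · rw [if_neg hp, if_neg (fun h => hp h.1), sub_zero, add_zero]
      exact mangoldtK_le K n
  refine (sum_le_sum key).trans ?_
  rw [← mul_sum, sum_add_distrib, sum_sub_distrib]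
  refine mul_le_mul_of_nonneg_left (add_le_add ?_ (sum_log_dvd_discr_le K _)) hn0
  refine le_trans (le_of_eq ?_) ((le_abs_self _).trans (Chebyshev.abs_psi_sub_theta_le_sqrt_mul_log hx))
  rw [Chebyshev.psi, Chebyshev.theta, Finset.sum_filter]
  rfl

/-- **The least prime splitting completely.** -/
theorem exists_split_prime_le : ∃ A : ℝ, 0 < A ∧
    ∀ (K : Type u) [Field K] [NumberField K] [IsGalois ℚ K],
      ∃ p : ℕ, p.Prime ∧ ¬ (p : ℤ) ∣ discr K ∧
        ((span {(p : ℤ)}).primesOver (𝓞 K)).ncard = finrank ℚ K ∧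
        (p : ℝ) ≤ Real.exp (A * finrank ℚ K * sizeL K ^ 2) := by
  obtain ⟨A, hA, h⟩ := exists_psiK_ge.{u}
  refine ⟨A, by linarith, fun K _ _ _ => ?_⟩
  obtain ⟨l, hl⟩ : ∃ l, l = A * finrank ℚ K * sizeL K ^ 2 := ⟨_, rfl⟩
  rw [← hl]
  by_contra hno
  push Not at hno
  have hge := h K (Real.exp l) (by rw [Real.log_exp, hl]) (Real.exp_pos _)
  have hL := three_le_sizeL K
  have hn : (1 : ℝ) ≤ finrank ℚ K := Nat.one_le_cast.2 finrank_pos
  have hl0 : 300 * sizeL K ≤ l := by
    rw [hl]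
    calc 300 * sizeL K ≤ 100 * 1 * (sizeL K * sizeL K) := by nlinarith
      _ ≤ A * finrank ℚ K * (sizeL K * sizeL K) := by gcongr
      _ = _ := by ring
  have hle := psiK_le_of_no_split K (x := Real.exp l) (Real.one_le_exp (by linarith))
    fun p hp hpx hd hs => absurd hpx (not_le.2 (hno p hp hd hs))
  have hD : 0 ≤ Real.log (((discr K).natAbs : ℕ) : ℝ) :=
    Real.log_nonneg (Nat.one_le_cast.2 (Int.natAbs_pos.2 (discr_ne_zero K)))
  rw [Real.log_exp, ← Real.exp_half] at hle
  obtain ⟨Z, hZ⟩ : ∃ Z, Z = Real.exp (l / 8) := ⟨_, rfl⟩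
  have hZ1 : l / 8 + 1 ≤ Z := hZ ▸ Real.add_one_le_exp _
  have e1 : Real.exp (l / 2) = Z ^ 4 := by rw [hZ, ← Real.exp_nat_mul]; ring_nf
  have e2 : Real.exp (-(9 * sizeL K)) * Real.exp l ≥ Z ^ 7 := by
    rw [hZ, ← Real.exp_nat_mul, ← Real.exp_add]
    refine Real.exp_le_exp.2 ?_
    push_cast
    linarith
  have hdl : Real.log (((discr K).natAbs : ℕ) : ℝ) ≤ l := by
    have : Real.log (((discr K).natAbs : ℕ) : ℝ) ≤ sizeL K := by rw [sizeL]; linarith
    linarith
  have hnl : (finrank ℚ K : ℝ) ≤ l := by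
    have : (finrank ℚ K : ℝ) ≤ sizeL K := by rw [sizeL]; linarith
    linarith
  rw [e1] at hle
  have hZ0 : 0 < Z := by linarith
  have hZl : l ≤ 8 * Z := by linarith
  have hbig : 384 < Z := by
    have h8 : l ^ 2 / 128 ≤ Z := by
      rw [hZ]
      refine le_trans ?_ (Real.quadratic_le_exp_of_nonneg (show 0 ≤ l / 8 by linarith))
      nlinarith
    nlinarith
  have h5 : (finrank ℚ K : ℝ) * (2 * Z ^ 4 * l + Real.log (((discr K).natAbs : ℕ) : ℝ)) ≤ 192 * Z ^ 6 := by
    have hZ4 : 1 ≤ Z ^ 4 := one_le_pow₀ (by linarith)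
    have hl00 : 0 ≤ l := by linarith
    calc _ ≤ l * (2 * Z ^ 4 * l + Z ^ 4 * l) := by
          refine mul_le_mul hnl (add_le_add le_rfl (hdl.trans (le_mul_of_one_le_left (by linarith) hZ4)))
            (by positivity) (by linarith)
      _ = 3 * Z ^ 4 * l ^ 2 := by ring
      _ ≤ 3 * Z ^ 4 * (8 * Z) ^ 2 := by gcongr
      _ = _ := by ring
  have h6 : Z ^ 7 / 2 ≤ 192 * Z ^ 6 := by linarith
  have h7 : 0 < Z ^ 6 := by positivity
  nlinarith

end FA.DedekindPIT
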