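import Fermat.Agent.ZeroFreeRegion.Inversion
import Fermat.Agent.DedekindZeroFree.Main

/-!
# Riemann's zeta function without its pole, in the thin strip

`|ζ s - 1 / (s - 1)| = O ((1 + t²) ^ (1/4))` for `re s ≥ 1 - 1 / log (|t| + 100)`, and
`∑ m ^ (-σ) ≤ 1 / (σ - 1) + 3`.
-/

set_option autoImplicit false

noncomputable section

open Complex
open scoped Real

namespace FA.DedekindPIT

/-- `(1 + y²) ^ (1/4)`. -/
def quarter (y : ℝ) : ℝ := (1 + y ^ 2) ^ (1 / 4 : ℝ)

theorem one_le_quarter (y : ℝ) : 1 ≤ quarter y :=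
  Real.one_le_rpow (by nlinarith [sq_nonneg y]) (by norm_num)

theorem ell_cube_le : ∃ C : ℝ, 1 ≤ C ∧ ∀ y : ℝ, ZeroFree.ell y ^ 3 ≤ C * quarter y := by
  obtain ⟨K, hK1, hK⟩ := ZeroFree.ell_pow_le
  exact ⟨K, hK1, fun y => (pow_le_pow_right₀ (by linarith [ZeroFree.four_le_ell y])
    (by norm_num : 3 ≤ 9)).trans (hK y)⟩

theorem norm_zeta₀_le {s : ℂ} (hs : 0 < s.re) : ‖riemannZeta₀ s‖ ≤ 1 + ‖s‖ / s.re := by
  rcases eq_or_ne s 1 with rfl | h1
  · rw [riemannZeta₀_one, Complex.norm_real, Real.norm_eq_abs, one_re, norm_one, div_one]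
    rw [abs_of_pos (by linarith [Real.one_half_lt_eulerMascheroniConstant])]
    linarith [Real.eulerMascheroniConstant_lt_two_thirds]
  have h : riemannZeta₀ s = 1 - s * CycloGrowth.fracInt s := by
    have e := CycloGrowth.riemannZeta₁_eq hs
    rw [riemannZeta₁] at e
    refine mul_left_cancel₀ (sub_ne_zero.2 h1) ?_
    linear_combination e
  rw [h]
  refine (norm_sub_le _ _).trans ?_
  rw [norm_one, norm_mul, div_eq_mul_one_div ‖s‖]
  exact add_le_add le_rfl (mul_le_mul_of_nonneg_left (CycloGrowth.norm_fracInt_le hs) (norm_nonneg _))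

theorem norm_zeta₀_le_quarter : ∃ C : ℝ, 1 ≤ C ∧ ∀ s : ℂ, 1 - 1 / ZeroFree.ell s.im ≤ s.re →
    ‖riemannZeta₀ s‖ ≤ C * quarter s.im := by
  obtain ⟨K, hK1, hK⟩ := ell_cube_le
  refine ⟨4 * Real.exp 4 * K + 4, by nlinarith [Real.exp_pos 4], fun s hs => ?_⟩
  have hw := one_le_quarter s.im
  have hℓ := ZeroFree.four_le_ell s.im
  have he : 0 ≤ 4 * Real.exp 4 * K * quarter s.im := by positivity
  rcases lt_or_ge |s.im| 1 with h | h
  · have h34 : 1 / ZeroFree.ell s.im ≤ 1 / 4 := one_div_le_one_div_of_le (by norm_num) hℓ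
    refine (norm_zeta₀_le (s := s) (by linarith)).trans ?_
    have hn : ‖s‖ ≤ 3 * s.re := by
      have := norm_le_abs_re_add_abs_im s
      rw [abs_of_pos (by linarith : 0 < s.re)] at this
      linarith
    have : ‖s‖ / s.re ≤ 3 := by rwa [div_le_iff₀ (by linarith)]
    linarith
  · have hs1 : s ≠ 1 := fun e => by rw [e] at h; norm_num at h
    have hn : 1 ≤ ‖s - 1‖ := h.trans (by simpa using abs_im_le_norm (s - 1))
    have e : riemannZeta₀ s = riemannZeta s - (s - 1)⁻¹ := by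
      rw [riemannZeta_eq_inv_sub_add hs1]; ring
    rw [e]
    refine (norm_sub_le _ _).trans ?_
    have h2 : ‖riemannZeta s‖ ≤ 4 * Real.exp 4 * ZeroFree.ell s.im := ZeroFree.norm_riemannZeta_le h (by
      have : 1 / ZeroFree.ell s.im ≤ 2 / ZeroFree.ell s.im :=
        div_le_div_of_nonneg_right one_le_two (ZeroFree.ell_pos _).le
      linarith)
    have h3 : ‖(s - 1)⁻¹‖ ≤ 1 := by rw [norm_inv]; exact inv_le_one_of_one_le₀ hn
    have h4 : ZeroFree.ell s.im ≤ K * quarter s.im :=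
      (le_self_pow₀ (by linarith) (by norm_num)).trans (hK s.im)
    have := mul_le_mul_of_nonneg_left h4 (show 0 ≤ 4 * Real.exp 4 by positivity)
    linarith

theorem eulerConst_le {σ : ℝ} (hσ : 1 < σ) : FA.HeckeBS.eulerConst σ ≤ 2 / (σ - 1) + 4 := by
  have hre : 1 < (σ : ℂ).re := by simpa using hσ
  have hne : (σ : ℂ) ≠ 1 := fun h => by simp [h] at hre
  have e1 : ((∑' m : ℕ, (m : ℝ) ^ (-σ) : ℝ) : ℂ) = riemannZeta σ := by
    rw [zeta_eq_tsum_one_div_nat_cpow hre, Complex.ofReal_tsum]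
    refine tsum_congr fun m => ?_
    rw [Real.rpow_neg (Nat.cast_nonneg m), ofReal_inv, ofReal_cpow (Nat.cast_nonneg m),
      ofReal_natCast, one_div]
  have h0 : 0 ≤ ∑' m : ℕ, (m : ℝ) ^ (-σ) := tsum_nonneg fun m => Real.rpow_nonneg (Nat.cast_nonneg m) _
  have h : ∑' m : ℕ, (m : ℝ) ^ (-σ) ≤ 1 / (σ - 1) + 2 := by
    rw [← Real.norm_of_nonneg h0, ← Complex.norm_real, e1, riemannZeta_eq_inv_sub_add hne]
    refine (norm_add_le _ _).trans (add_le_add (le_of_eq ?_) ((norm_zeta₀_le (zero_lt_one.trans hre)).trans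
      (le_of_eq ?_)))
    · rw [← ofReal_one, ← ofReal_sub, norm_inv, norm_real, Real.norm_of_nonneg (by linarith), one_div]
    · rw [norm_real, Real.norm_of_nonneg (by linarith), ofReal_re, div_self (by linarith)]
      norm_num
  rw [FA.HeckeBS.eulerConst]
  have : 2 * (1 / (σ - 1)) = 2 / (σ - 1) := by ring
  linarith

end FA.DedekindPIT
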