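import Fermat.Agent.DedekindPrimeIdeals.LogDeriv
import Fermat.Agent.NaturalChebotarev.Counting
import Fermat.Agent.SiegelWalfisz.Perron

/-!
# The series of `-ζ_K'/ζ_K` against its main term

`mangoldtK n` is the sum of `log N(v)` over the `v ^ k` of norm `n`. With `w n = 1`, or
`1 - n ^ (β - 1)` for an exceptional zero `β`, the Dirichlet series of `mangoldtK - w` continues into
the region with the bound `O (L₀ ^ 3 (1 + t²) ^ (1/4))`.
-/

set_option autoImplicit false
set_option linter.style.haveILetI false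

noncomputable section

universe u

open NumberField IsDedekindDomain Module Complex Ideal Filter Topology
open FA.DedekindZF FA.HeckeBS FA.Hecke FA.PrimeIdeal
open scoped Real Classical ArithmeticFunction.vonMangoldt

namespace FA.DedekindPIT

variable (K : Type u) [Field K] [NumberField K]

/-- `∑ log N(v)` over `N(v) ^ k = n`. -/
def mangoldtK (n : ℕ) : ℝ := fiberSum (K := K) (fun _ => 1) n

theorem mangoldtK_nonneg (n : ℕ) : 0 ≤ mangoldtK K n :=
  tsum_nonneg fun _ => mul_nonneg zero_le_one (Real.log_natCast_nonneg _)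

theorem mangoldtK_le (n : ℕ) : mangoldtK K n ≤ finrank ℚ K * Λ n :=
  (fiberSum_le (w := fun _ => 1) (fun _ => zero_le_one) (fun _ => le_rfl) n).trans_eq (one_mul _)

variable {K} {E : ℂ → ℂ} (hE : Differentiable ℂ E)
  (hEL : ∀ s : ℂ, 1 < s.re → E s = (s - 1) * dedekindZeta K s)

include hE hEL in
theorem LSeries_mangoldtK {s : ℂ} (hs : 1 < s.re) :
    LSeriesSummable (fun n => (mangoldtK K n : ℂ)) s ∧
      LSeries (fun n => (mangoldtK K n : ℂ)) s = -(deriv E s / E s) + (s - 1)⁻¹ := by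
  set c : HeightOneSpectrum (𝓞 K) × ℕ → ℂ := fun p => (Real.log (absNorm p.1.asIdeal) : ℂ)
  have hB : ∀ p, ‖c p‖ ≤ 1 * Real.log (absNorm p.1.asIdeal) := fun p => by
    rw [one_mul, Complex.norm_real, Real.norm_of_nonneg (Real.log_natCast_nonneg _)]
  have he : (fun n => (mangoldtK K n : ℂ)) = fun n => ∑' p : PowFiber K n, c p.1 := by
    funext n
    rw [mangoldtK, fiberSum, Complex.ofReal_tsum]
    simp [c]
  rw [he]
  refine ⟨(LSeries_fiber zero_le_one hB hs).1, ?_⟩
  rw [(LSeries_fiber zero_le_one hB hs).2]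
  have hone : IsRayChar (⊤ : Ideal (𝓞 K)) (1 : Ideal (𝓞 K) →* ℂ) := IsRayChar.one
  have hfib : ∀ v : HeightOneSpectrum (𝓞 K), HasSum (fun k => c (v, k) * primePow s v ^ (k + 1))
      ((Real.log (absNorm v.asIdeal) : ℂ) * (fPow 1 s v / (1 - fPow 1 s v))) := fun v => by
    have h := ((hasSum_geometric_of_norm_lt_one
      ((hone.norm_fPow_le_half hs.le v).trans_lt (by norm_num))).mul_left (fPow 1 s v)).mul_left
        (Real.log (absNorm v.asIdeal) : ℂ)
    simpa [c, fPow, pow_succ', div_eq_mul_inv] using h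
  have hval := (summable_mul_pow zero_le_one hB hs).hasSum.prod_fiberwise hfib
  rw [hval.unique (hone.hasSum_negLogDeriv hs)]
  have hs1 := FA.PrimeIdeal.sub_one_ne_zero hs
  have eG : heckeL (1 : Ideal (𝓞 K) →* ℂ) =ᶠ[𝓝 s] fun y => E y / (y - 1) := by
    filter_upwards [(isOpen_lt continuous_const Complex.continuous_re).mem_nhds hs] with y hy
    rw [heckeL_one hy, hEL y hy, mul_div_cancel_left₀ _ (FA.PrimeIdeal.sub_one_ne_zero hy)]
  have hd : HasDerivAt (fun y => E y / (y - 1))
      ((deriv E s * (s - 1) - E s * 1) / (s - 1) ^ 2) s :=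
    (hE s).hasDerivAt.div ((hasDerivAt_id s).sub_const 1) hs1
  have hne := cleared_ne_zero hE hEL hs.le
  rw [eG.deriv_eq, eG.eq_of_nhds, hd.deriv]
  field_simp
  ring

/-- A bound for `ζ s - 1 / (s - 1)` over `(1 + t²) ^ (1/4)` in the strip. -/
def restC : ℝ := 2 * norm_zeta₀_le_quarter.choose

theorem norm_zeta₀_le_restC {s : ℂ} (hs : 1 - 1 / ZeroFree.ell s.im ≤ s.re) :
    ‖riemannZeta₀ s‖ ≤ restC / 2 * quarter s.im := by
  rw [restC, mul_div_cancel_left₀ _ two_ne_zero]
  exact norm_zeta₀_le_quarter.choose_spec.2 s hs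

theorem restC_nonneg : 0 ≤ restC := by
  have := norm_zeta₀_le_quarter.choose_spec.1
  rw [restC]; linarith

/-- A main term: its coefficients and the part `r` of its continuation without the pole. -/
structure MainTerm (K : Type u) [Field K] [NumberField K] (g : ℂ → ℂ) (w : ℕ → ℝ) (r : ℂ → ℂ) :
    Prop where
  good : IsGood K g goodP
  zero_le : ∀ n : ℕ, 1 ≤ n → 0 ≤ w n
  le_one : ∀ n : ℕ, 1 ≤ n → w n ≤ 1
  diff : Differentiable ℂ r
  small : ∀ s : ℂ, 1 - 1 / ZeroFree.ell s.im ≤ s.re → ‖r s‖ ≤ restC * quarter s.im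
  series : ∀ s : ℂ, 1 < s.re →
    LSeriesSummable (fun n => ((mangoldtK K n - w n : ℝ) : ℂ)) s ∧
      LSeries (fun n => ((mangoldtK K n - w n : ℝ) : ℂ)) s = -(deriv g s / g s) - r s

theorem LSeries_one {s : ℂ} (hs : 1 < s.re) :
    LSeries (1 : ℕ → ℂ) s = (s - 1)⁻¹ + riemannZeta₀ s := by
  rw [LSeries_one_eq_riemannZeta hs, riemannZeta_eq_inv_sub_add fun h => by simp [h] at hs]

include hE hEL in
theorem mainTerm_plain (hno : ∀ z : ℂ, 1 - zfrC / height K z.im ≤ z.re → E z ≠ 0) :
    MainTerm K E (fun _ => 1) riemannZeta₀ where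
  good := isGood_cleared hE hEL hno
  zero_le _ _ := zero_le_one
  le_one _ _ := le_rfl
  diff := differentiable_riemannZeta₀
  small s hs := (norm_zeta₀_le_restC hs).trans (mul_le_mul_of_nonneg_right
    (by linarith [restC_nonneg]) (zero_le_one.trans (one_le_quarter _)))
  series s hs := by
    obtain ⟨h1, h2⟩ := LSeries_mangoldtK hE hEL hs
    have e : (fun n => ((mangoldtK K n - 1 : ℝ) : ℂ)) = (fun n => (mangoldtK K n : ℂ)) - 1 := by
      funext n; simp
    have ho := LSeriesSummable_one_iff.2 hs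
    rw [e]
    refine ⟨h1.sub ho, ?_⟩
    rw [LSeries_sub h1 ho, h2, LSeries_one hs]
    ring

include hE hEL in
theorem mainTerm_exceptional {β : ℝ} (hβ : 1 - zfrC / height K 0 ≤ β) (h0 : E (β : ℂ) = 0) :
    MainTerm K (dslope E (β : ℂ)) (fun n => 1 - (n : ℝ) ^ (β - 1))
      (fun s => riemannZeta₀ s - riemannZeta₀ (s + 1 - β)) := by
  have hβ1 : β < 1 := not_le.1 fun h => cleared_ne_zero hE hEL (by simpa using h) h0
  refine ⟨isGood_dslope hE hEL hβ h0, fun n hn => sub_nonneg.2
    (Real.rpow_le_one_of_one_le_of_nonpos (Nat.one_le_cast.2 hn) (by linarith)),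
    fun n _ => sub_le_self _ (Real.rpow_nonneg (Nat.cast_nonneg n) _),
    differentiable_riemannZeta₀.sub (differentiable_riemannZeta₀.comp
      ((differentiable_id.add_const 1).sub_const _)), fun s hs => ?_, fun s hs => ?_⟩
  · have hs' : 1 - 1 / ZeroFree.ell (s + 1 - β).im ≤ (s + 1 - β).re := by
      simp only [sub_re, add_re, one_re, ofReal_re, sub_im, add_im, one_im, ofReal_im, add_zero, sub_zero]
      linarith
    have him : (s + 1 - β).im = s.im := by simp
    refine (norm_sub_le _ _).trans ?_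
    have h := norm_zeta₀_le_restC hs'
    rw [him] at h
    linarith [norm_zeta₀_le_restC hs]
  obtain ⟨h1, h2⟩ := LSeries_mangoldtK hE hEL hs
  have ho := LSeriesSummable_one_iff.2 hs
  have hs' : 1 < (s + 1 - β).re := by simp; linarith
  have ho' := LSeriesSummable_one_iff.2 hs'
  set b : ℕ → ℂ := fun n => (((n : ℝ) ^ (β - 1) : ℝ) : ℂ)
  have hb : ∀ n, LSeries.term b s n = LSeries.term (1 : ℕ → ℂ) (s + 1 - β) n := fun n => by
    rcases eq_or_ne n 0 with rfl | hn
    · simp
    rw [LSeries.term_of_ne_zero hn, LSeries.term_of_ne_zero hn]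
    simp only [b, Pi.one_apply, ofReal_cpow (Nat.cast_nonneg n), ofReal_natCast, ofReal_sub, ofReal_one]
    rw [show s + 1 - (β : ℂ) = s - ((β : ℂ) - 1) by ring, cpow_sub s _ (Nat.cast_ne_zero.2 hn)]
    field_simp
  have hbs : LSeriesSummable b s := by
    rw [LSeriesSummable, funext hb]
    exact ho'
  have hbv : LSeries b s = LSeries (1 : ℕ → ℂ) (s + 1 - β) := tsum_congr hb
  have e : (fun n => ((mangoldtK K n - (1 - (n : ℝ) ^ (β - 1)) : ℝ) : ℂ)) =
      (fun n => (mangoldtK K n : ℂ)) - 1 + b := by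
    funext n; simp [b]; ring
  rw [e]
  refine ⟨(h1.sub ho).add hbs, ?_⟩
  rw [LSeries_add (h1.sub ho) hbs, LSeries_sub h1 ho, h2, LSeries_one hs, hbv, LSeries_one hs']
  -- the logarithmic derivative without the exceptional zero
  have hfac : ∀ z, E z = (z - β) * dslope E (β : ℂ) z := fun z => by
    rw [← smul_eq_mul, sub_smul_dslope, h0, sub_zero]
  have hsβ : s - β ≠ 0 := fun h => by
    have := congrArg Complex.re h
    simp at this
    linarith
  have hne := cleared_ne_zero hE hEL hs.le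
  rw [hfac, mul_ne_zero_iff] at hne
  have hg : DifferentiableAt ℂ (dslope E (β : ℂ)) s :=
    (isGood_dslope hE hEL hβ h0).diff s
  have hd : HasDerivAt E (1 * dslope E (β : ℂ) s + (s - β) * deriv (dslope E (β : ℂ)) s) s :=
    (((hasDerivAt_id' s).sub_const (β : ℂ)).mul hg.hasDerivAt).congr_of_eventuallyEq
      (Eventually.of_forall hfac)
  rw [hd.deriv, hfac s, show s + 1 - (β : ℂ) - 1 = s - β by ring]
  field_simp [hne.2]
  ring

/-- **The bound in the region.** -/
theorem exists_region_bound : ∃ C : ℝ, 0 ≤ C ∧ ∀ (K : Type u) [Field K] [NumberField K] (g : ℂ → ℂ)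
    (w : ℕ → ℝ) (r : ℂ → ℂ), MainTerm K g w r →
      ∀ s : ℂ, 1 - width K s.im ≤ s.re → s.re ≤ 2 →
        DifferentiableAt ℂ (fun s => -(deriv g s / g s) - r s) s ∧
        ‖-(deriv g s / g s) - r s‖ ≤ C * height K 0 ^ 3 * quarter s.im := by
  obtain ⟨K₁, hK₁, hK⟩ := ell_cube_le
  have hP : 0 ≤ derivB goodP := derivB_nonneg goodP_nonneg
  have hR := restC_nonneg
  refine ⟨derivB goodP * K₁ + restC, by positivity, fun K _ _ g w r hM s h1 h2 => ?_⟩
  have hH := one_le_height K 0
  have hHs := one_le_height K s.im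
  have hℓ := ZeroFree.four_le_ell s.im
  have hlog : Real.log (|s.im| + 3) ≤ ZeroFree.ell s.im :=
    Real.log_le_log (by positivity) (by linarith)
  have hHℓ : height K s.im ≤ height K 0 * ZeroFree.ell s.im := by
    have hn : (0 : ℝ) ≤ finrank ℚ K := Nat.cast_nonneg _
    have hD : 0 ≤ Real.log (((discr K).natAbs : ℕ) : ℝ) :=
      Real.log_nonneg (Nat.one_le_cast.2 (Int.natAbs_pos.2 (discr_ne_zero K)))
    have h3 : 1 ≤ Real.log (|(0 : ℝ)| + 3) := one_le_log 0
    rw [FA.DedekindZF.height, FA.DedekindZF.height]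
    nlinarith [mul_le_mul_of_nonneg_left hlog hn, mul_le_mul_of_nonneg_left h3 hn,
      mul_nonneg hD (show 0 ≤ ZeroFree.ell s.im - 1 by linarith)]
  have hw : width K s.im ≤ 1 / ZeroFree.ell s.im := by
    have hn : (1 : ℝ) ≤ finrank ℚ K := Nat.one_le_cast.2 finrank_pos
    have h6 : ZeroFree.ell s.im ≤ 6 * Real.log (|s.im| + 3) := by
      rw [show (6 : ℝ) * Real.log (|s.im| + 3) = Real.log ((|s.im| + 3) ^ 6) by rw [Real.log_pow]; norm_num]
      refine Real.log_le_log (by positivity) ?_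
      calc |s.im| + 100 ≤ 34 * (|s.im| + 3) := by linarith [abs_nonneg s.im]
        _ ≤ (|s.im| + 3) ^ 5 * (|s.im| + 3) := by
            refine mul_le_mul_of_nonneg_right ((show (34 : ℝ) ≤ 3 ^ 5 by norm_num).trans ?_) (by positivity)
            exact pow_le_pow_left₀ (by norm_num) (le_add_of_nonneg_left (abs_nonneg _)) 5
        _ = _ := by ring
    have hD : 0 ≤ Real.log (((discr K).natAbs : ℕ) : ℝ) :=
      Real.log_nonneg (Nat.one_le_cast.2 (Int.natAbs_pos.2 (discr_ne_zero K)))
    have := le_mul_of_one_le_left (zero_le_one.trans (one_le_log s.im)) hn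
    rw [width, div_le_div_iff₀ (by linarith) (by linarith), one_mul]
    refine (mul_le_mul zfrC_le h6 (by linarith) (by norm_num)).trans ?_
    rw [FA.DedekindZF.height]
    linarith
  have hg := hM.good.ne_zero s (le_trans (by
    have := width_pos K s.im
    have e : zfrC / height K s.im = 4 * width K s.im := by rw [width]; field_simp
    linarith) h1)
  refine ⟨((((hM.good.diff.differentiableOn (s := Set.univ)).deriv isOpen_univ).differentiableAt
    Filter.univ_mem).div (hM.good.diff s) hg).neg.sub (hM.diff s), ?_⟩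
  refine (norm_sub_le _ _).trans ?_
  rw [norm_neg, add_mul, add_mul, mul_assoc (derivB goodP) K₁, mul_assoc (derivB goodP)]
  refine add_le_add ((hM.good.norm_logDeriv_le goodP_nonneg h1 h2).trans
    (mul_le_mul_of_nonneg_left ?_ hP)) ((hM.small s (by linarith)).trans ?_)
  · refine (pow_le_pow_left₀ (by linarith) hHℓ 3).trans ?_
    rw [mul_pow]
    refine (mul_le_mul_of_nonneg_left (hK _) (by positivity)).trans (le_of_eq ?_)
    ring
  · exact mul_le_mul_of_nonneg_right (le_mul_of_one_le_right hR (one_le_pow₀ hH))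
      (zero_le_one.trans (one_le_quarter _))

end FA.DedekindPIT
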