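import Fermat.Agent.DedekindPrimeIdeals.Count
import Fermat.Agent.VonKoch.PrimeCount

/-!
# The classical error term for one field

For a fixed field the exceptional term and the dependence on the field go into the two constants:
`π_K x = ∫_2^x dt / log t + O (x exp (- c √(log x)))`.
-/

set_option autoImplicit false
set_option linter.style.haveILetI false

noncomputable section

universe u

open NumberField Module MeasureTheory
open FA.DedekindZF
open scoped Real Classical

namespace FA.DedekindPIT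

variable (K : Type u) [Field K] [NumberField K]

theorem gauge_ge_sqrt : ∃ b : ℝ, 0 < b ∧ ∀ x : ℝ, 2 ≤ x → b * √(Real.log x) ≤ gauge K x := by
  obtain ⟨D₀, hD₀⟩ : ∃ D₀, D₀ = 1 + Real.log (((discr K).natAbs : ℕ) : ℝ) + 2 * finrank ℚ K := ⟨_, rfl⟩
  have hd : 0 ≤ Real.log (((discr K).natAbs : ℕ) : ℝ) :=
    Real.log_nonneg (Nat.one_le_cast.2 (Int.natAbs_pos.2 (discr_ne_zero K)))
  have hn : (0 : ℝ) ≤ finrank ℚ K := Nat.cast_nonneg _
  have hD0 : 0 < 2 * D₀ + √(finrank ℚ K) := by
    have := Real.sqrt_nonneg (finrank ℚ K : ℝ)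
    linarith
  refine ⟨1 / (2 * D₀ + √(finrank ℚ K)), by positivity, fun x hx => ?_⟩
  have hl : 0.69 < Real.log x :=
    lt_of_lt_of_le (lt_trans (by norm_num) Real.log_two_gt_d9) (Real.log_le_log two_pos hx)
  have hs : 1 ≤ 2 * √(Real.log x) := by
    have : (1 : ℝ) / 2 ≤ √(Real.log x) := Real.le_sqrt_of_sq_le (by linarith)
    linarith
  have hg : gaugeD K x ≤ (2 * D₀ + √(finrank ℚ K)) * √(Real.log x) := by
    rw [gaugeD, Real.sqrt_mul hn, ← hD₀]
    have := le_mul_of_one_le_right (show 0 ≤ D₀ by linarith) hs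
    linarith
  have hg0 := one_le_gaugeD K x
  have e := Real.mul_self_sqrt (show 0 ≤ Real.log x by linarith)
  rw [gauge, div_mul_eq_mul_div, one_mul, div_le_div_iff₀ hD0 (by linarith)]
  nlinarith [mul_le_mul_of_nonneg_left hg (Real.sqrt_nonneg (Real.log x))]

/-- `x ^ β ≤ x exp (- (1 - β) √(log x) / 2)`. -/
theorem rpow_le_mul_exp {β x : ℝ} (hβ : β ≤ 1) (hx : 2 ≤ x) :
    x ^ β ≤ x * Real.exp (-((1 - β) / 2 * √(Real.log x))) := by
  have hx0 : 0 < x := by linarith
  have hl : 0.69 < Real.log x :=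
    lt_of_lt_of_le (lt_trans (by norm_num) Real.log_two_gt_d9) (Real.log_le_log two_pos hx)
  have hs : (1 : ℝ) / 2 ≤ √(Real.log x) := Real.le_sqrt_of_sq_le (by linarith)
  have e := Real.mul_self_sqrt (show 0 ≤ Real.log x by linarith)
  rw [Real.rpow_def_of_pos hx0]
  nth_rw 2 [← Real.exp_log hx0]
  rw [← Real.exp_add]
  refine Real.exp_le_exp.2 ?_
  have h1 := mul_le_mul_of_nonneg_left
    (show √(Real.log x) / 2 ≤ Real.log x by nlinarith) (sub_nonneg.2 hβ)
  linarith

/-- **The three classical forms.** -/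
theorem exists_fixed_field_error : ∃ c C : ℝ, 0 < c ∧ 0 < C ∧ ∀ x : ℝ, 2 ≤ x →
    |psiK K x - x| ≤ C * x * Real.exp (-(c * √(Real.log x))) ∧
      |piK K x - ∫ t in (2 : ℝ)..x, 1 / Real.log t| ≤ C * x * Real.exp (-(c * √(Real.log x))) := by
  obtain ⟨E, hE, hEL, -⟩ := FA.ZetaDivisibility.exists_zeta_cleared K
  obtain ⟨c₁, C₁, hc₁, -, hC₁, hψ⟩ := exists_psiK_error.{u}
  obtain ⟨c₂, C₂, hc₂, hC₂, hπ⟩ := exists_piK_error.{u}
  obtain ⟨b, hb, hgauge⟩ := gauge_ge_sqrt K
  obtain ⟨H, hH⟩ : ∃ H, H = height K 0 ^ 3 := ⟨_, rfl⟩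
  have hH0 : 0 ≤ H := hH ▸ pow_nonneg (zero_le_one.trans (one_le_height K 0)) 3
  have hgen : ∀ {A d : ℝ}, 0 ≤ A → 0 < d → ∀ {c' : ℝ}, c' ≤ d * b → ∀ x : ℝ, 2 ≤ x →
      A * H * (x * Real.exp (-(d * gauge K x))) ≤ A * H * (x * Real.exp (-(c' * √(Real.log x)))) :=
    fun {A d} hA hd {c'} hc' x hx => by
      have : 0 ≤ x := by linarith
      have h1 := mul_le_mul_of_nonneg_left (hgauge x hx) hd.le
      have h2 := mul_le_mul_of_nonneg_right hc' (Real.sqrt_nonneg (Real.log x))
      exact mul_le_mul_of_nonneg_left (mul_le_mul_of_nonneg_left (Real.exp_le_exp.2 (by linarith)) this)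
        (by positivity)
  by_cases hno : ∀ β : ℝ, 1 - zfrC / height K 0 ≤ β → E (β : ℂ) ≠ 0
  · refine ⟨min (c₁ * b) (c₂ * b), (C₁ + C₂) * H + 1, lt_min (by positivity) (by positivity),
      by positivity, fun x hx => ⟨?_, ?_⟩⟩
    · refine ((hψ K E hE hEL x hx).1 hno).trans ?_
      rw [← hH]
      refine (hgen hC₁ hc₁ (min_le_left (c₁ * b) (c₂ * b)) x hx).trans ?_
      have h0 : 0 ≤ x * Real.exp (-(min (c₁ * b) (c₂ * b) * √(Real.log x))) := by positivity
      linarith [mul_nonneg (mul_nonneg hC₂ hH0) h0]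
    · refine ((hπ K E hE hEL x hx).1 hno).trans ?_
      rw [← hH]
      refine (hgen hC₂ hc₂ (min_le_right (c₁ * b) (c₂ * b)) x hx).trans ?_
      have h0 : 0 ≤ x * Real.exp (-(min (c₁ * b) (c₂ * b) * √(Real.log x))) := by positivity
      linarith [mul_nonneg (mul_nonneg hC₁ hH0) h0]
  · push Not at hno
    obtain ⟨β, hβ, h0⟩ := hno
    have hβ1 : β < 1 := not_le.1 fun h => cleared_ne_zero hE hEL (by simpa using h) h0
    have hβ0 : 3 / 4 ≤ β := by
      have := div_le_self zfrC_pos.le (one_le_height K 0)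
      linarith [zfrC_le]
    obtain ⟨c, hc⟩ : ∃ c, c = min (min (c₁ * b) (c₂ * b)) ((1 - β) / 2) := ⟨_, rfl⟩
    refine ⟨c, (C₁ + C₂) * H + 4, hc ▸ lt_min (lt_min (by positivity) (by positivity)) (by linarith),
      by positivity, fun x hx => ?_⟩
    have hx0 : 0 < x := by linarith
    have hP : x ^ β / β ≤ 2 * (x * Real.exp (-(c * √(Real.log x)))) := by
      rw [div_le_iff₀ (by linarith)]
      refine (rpow_le_mul_exp hβ1.le hx).trans ?_
      have hle : x * Real.exp (-((1 - β) / 2 * √(Real.log x))) ≤ x * Real.exp (-(c * √(Real.log x))) := by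
        gcongr
        exact hc ▸ min_le_right _ _
      have h2 := mul_le_mul_of_nonneg_left (show 1 ≤ 2 * β by linarith)
        (show 0 ≤ x * Real.exp (-(c * √(Real.log x))) by positivity)
      linarith
    have h0' : 0 ≤ x * Real.exp (-(c * √(Real.log x))) := by positivity
    have hCH1 := mul_nonneg (mul_nonneg hC₁ hH0) h0'
    have hCH2 := mul_nonneg (mul_nonneg hC₂ hH0) h0'
    refine ⟨?_, ?_⟩
    · have h1 := ((hψ K E hE hEL x hx).2 β hβ h0)
      rw [← hH] at h1
      have h2 := h1.trans (hgen hC₁ hc₁ (c' := c) (hc ▸ (min_le_left _ _).trans (min_le_left _ _)) x hx)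
      have hP0 : 0 ≤ x ^ β / β := by positivity
      rw [abs_le] at h2 ⊢
      constructor <;> linarith
    · have h1 := ((hπ K E hE hEL x hx).2 β hβ h0)
      rw [← hH] at h1
      have h2 := h1.trans (hgen hC₂ hc₂ (c' := c) (hc ▸ (min_le_left _ _).trans (min_le_right _ _)) x hx)
      have hne : ∀ t ∈ Set.uIcc 2 x, 2 ≤ t ∧ t ≠ 0 ∧ Real.log t ≠ 0 := fun t ht => by
        rw [Set.uIcc_of_le hx] at ht
        exact ⟨ht.1, by linarith [ht.1], (Real.log_pos (by linarith [ht.1])).ne'⟩
      have i1 : IntervalIntegrable (fun t => 1 / Real.log t) volume 2 x :=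
        ContinuousOn.intervalIntegrable fun t ht => ContinuousAt.continuousWithinAt <| by
          obtain ⟨-, a1, a2⟩ := hne t ht
          fun_prop (disch := assumption)
      have i2 : IntervalIntegrable (fun t => t ^ (β - 1) / Real.log t) volume 2 x := by
        refine ContinuousOn.intervalIntegrable (ContinuousOn.div ?_ ?_ fun t ht => (hne t ht).2.2)
        · exact continuousOn_id.rpow_const fun t ht => Or.inl (hne t ht).2.1
        · exact fun t ht => (Real.continuousAt_log (hne t ht).2.1).continuousWithinAt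
      have e : ∫ t in (2 : ℝ)..x, (1 - t ^ (β - 1)) / Real.log t =
          (∫ t in (2 : ℝ)..x, 1 / Real.log t) - ∫ t in (2 : ℝ)..x, t ^ (β - 1) / Real.log t := by
        rw [← intervalIntegral.integral_sub i1 i2]
        simp only [sub_div]
      have hR0 : 0 ≤ ∫ t in (2 : ℝ)..x, t ^ (β - 1) / Real.log t :=
        intervalIntegral.integral_nonneg hx fun t ht =>
          div_nonneg (Real.rpow_nonneg (by linarith [ht.1]) _) (Real.log_nonneg (by linarith [ht.1]))
      have hR : ∫ t in (2 : ℝ)..x, t ^ (β - 1) / Real.log t ≤ 2 * (x ^ β / β) := by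
        refine (intervalIntegral.integral_mono_on hx i2
          ((intervalIntegral.intervalIntegrable_rpow' (by linarith : -1 < β - 1)).const_mul 2)
          fun t ht => ?_).trans ?_
        · have hl := Real.log_le_log two_pos ht.1
          have := Real.log_two_gt_d9
          rw [div_le_iff₀ (by linarith)]
          nlinarith [Real.rpow_nonneg (show 0 ≤ t by linarith [ht.1]) (β - 1)]
        · rw [intervalIntegral.integral_const_mul]
          exact mul_le_mul_of_nonneg_left (FA.VonKoch.integral_rpow_le (by linarith)) zero_le_two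
      rw [e] at h2
      rw [abs_le] at h2 ⊢
      constructor <;> linarith

end FA.DedekindPIT
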