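import Fermat.Agent.DedekindPrimeIdeals.ZetaBound
import Fermat.Agent.DelaValleePoussin.Landau

/-!
# The logarithmic derivative in half of the zero-free region

If an entire `g` has no zero with `re s ≥ 1 - c / L(im s)`, `L` the height, is `exp (O (L))` and is
`exp (- O (L / (re s - 1)))` to the right of `1`, then `g' / g = O (L ^ 3)` for
`re s ≥ 1 - c / (4 L(im s))`. This applies to `(s - 1) ζ_K` divided by the exceptional factor.
-/

set_option autoImplicit false
set_option linter.style.haveILetI false

noncomputable section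

universe u

open NumberField Module Complex Metric Set
open FA.DedekindZF FA.HeckeBS
open scoped Real Classical

namespace FA.DedekindPIT

variable (K : Type u) [Field K] [NumberField K]

theorem zfrC_le : zfrC ≤ 1 / 20000 := by
  have := one_le_varA
  rw [zfrC]
  exact one_div_le_one_div_of_le (by norm_num) (by linarith)

/-- A quarter of the width of the region. -/
def width (t : ℝ) : ℝ := zfrC / (4 * height K t)

theorem width_pos (t : ℝ) : 0 < width K t := by
  have := zfrC_pos
  have := one_le_height K t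
  rw [width]; positivity

theorem width_le (t : ℝ) : width K t ≤ 1 / 80000 := by
  have := one_le_height K t
  rw [width, div_le_iff₀ (by linarith)]
  linarith [zfrC_le]

/-- The three hypotheses. -/
structure IsGood (g : ℂ → ℂ) (P : ℝ) : Prop where
  diff : Differentiable ℂ g
  ne_zero : ∀ z : ℂ, 1 - zfrC / height K z.im ≤ z.re → g z ≠ 0
  upper : ∀ z : ℂ, z.re ∈ Icc (0 : ℝ) 4 → ‖g z‖ ≤ Real.exp (P * height K z.im)
  lower : ∀ z : ℂ, 1 < z.re → z.re ≤ 3 → -Real.log ‖g z‖ ≤ P * height K z.im / (z.re - 1)

/-- The constant of the bound. -/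
def derivB (P : ℝ) : ℝ := 320 * (3 * P + 1) / zfrC ^ 2

theorem derivB_nonneg {P : ℝ} (hP : 0 ≤ P) : 0 ≤ derivB P := by
  have := zfrC_pos
  rw [derivB]; positivity

variable {K}

theorem IsGood.norm_logDeriv_le {g : ℂ → ℂ} {P : ℝ} (h : IsGood K g P) (hP : 0 ≤ P) {s : ℂ}
    (h1 : 1 - width K s.im ≤ s.re) (h2 : s.re ≤ 2) :
    ‖deriv g s / g s‖ ≤ derivB P * height K s.im ^ 3 := by
  set H := height K s.im
  have hH : 1 ≤ H := one_le_height K s.im
  set δ := width K s.im
  have hδ : 0 < δ := width_pos K s.im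
  have hδ' : δ ≤ 1 / 80000 := width_le K s.im
  set σ₀ := max s.re (1 + δ)
  have hσ₀ : 1 + δ ≤ σ₀ := le_max_right _ _
  have hσ₀s : s.re ≤ σ₀ := le_max_left _ _
  have hσ₀2 : σ₀ ≤ 5 / 2 := max_le (by linarith) (by linarith)
  have hdist : σ₀ - s.re ≤ 2 * δ := by
    rcases le_total s.re (1 + δ) with h' | h'
    · rw [show σ₀ = 1 + δ from max_eq_right h']; linarith
    · rw [show σ₀ = s.re from max_eq_left h']; linarith
  set c : ℂ := (σ₀ : ℂ) + s.im * I
  have hcre : c.re = σ₀ := by simp [c]
  have hcim : c.im = s.im := by simp [c]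
  set f : ℂ → ℂ := fun w => g (c + w)
  have hf : Differentiable ℂ f := h.diff.comp (differentiable_id.const_add c)
  have hball : ∀ w ∈ ball (0 : ℂ) (3 * δ), 1 - zfrC / height K (c + w).im ≤ (c + w).re ∧
      (c + w).re ∈ Icc (0 : ℝ) 4 ∧ height K (c + w).im ≤ 2 * H := fun w hw => by
    rw [mem_ball_zero_iff] at hw
    have hr := abs_le.1 ((abs_re_le_norm w).trans hw.le)
    have hi := abs_le.1 ((abs_im_le_norm w).trans hw.le)
    have hh : height K (c + w).im ≤ 2 * H := height_le_two_mul K (Or.inl (by
      rw [add_im, hcim]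
      have := abs_add_le s.im w.im
      have := abs_le.2 hi
      linarith))
    refine ⟨?_, by rw [add_re, hcre]; exact ⟨by linarith, by linarith⟩, hh⟩
    have e : 2 * δ ≤ zfrC / height K (c + w).im := by
      refine le_trans (le_of_eq ?_) (div_le_div_of_nonneg_left zfrC_pos.le
        (zero_lt_one.trans_le (one_le_height K _)) hh)
      simp only [δ, width, H]
      field_simp
      ring
    rw [add_re, hcre]
    linarith
  have hne : ∀ w ∈ ball (0 : ℂ) (3 * δ), f w ≠ 0 := fun w hw => h.ne_zero _ (hball w hw).1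
  set L := 3 * P * H / δ + 1
  have hPH : 0 ≤ P * H := mul_nonneg hP (by linarith)
  have hq : P * H ≤ P * H / δ := le_div_self hPH hδ (by linarith)
  have hL : 0 < L := by simp only [L]; positivity
  have hlow : -(P * H / δ) ≤ Real.log ‖f 0‖ := by
    have := h.lower c (by rw [hcre]; linarith) (by rw [hcre]; linarith)
    rw [hcre, hcim] at this
    have h' : P * H / (σ₀ - 1) ≤ P * H / δ := div_le_div_of_nonneg_left hPH hδ (by linarith)
    simp only [f, add_zero]
    linarith
  have hb : ∀ w ∈ ball (0 : ℂ) (3 * δ), ‖f w‖ ≤ Real.exp L * ‖f 0‖ := fun w hw => by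
    obtain ⟨-, hre, hh⟩ := hball w hw
    refine (h.upper _ hre).trans ?_
    rw [← Real.exp_log (norm_pos_iff.2 (hne 0 (mem_ball_self (by linarith)))), ← Real.exp_add]
    refine Real.exp_le_exp.2 ?_
    have := mul_le_mul_of_nonneg_left hh hP
    have e : 3 * P * H / δ = 3 * (P * H / δ) := by ring
    simp only [L, e]
    linarith
  obtain ⟨φ, hder, hφ⟩ := FA.DLVP.norm_log_le (by positivity : (0 : ℝ) < 3 * δ) hf.differentiableOn hne
    (Real.one_lt_exp_iff.2 hL) hb
  rw [Real.log_exp] at hφ
  set w₀ : ℂ := ((s.re - σ₀ : ℝ) : ℂ)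
  have hw₀ : ‖w₀‖ ≤ 2 * δ := by
    rw [norm_real, Real.norm_eq_abs, abs_sub_comm, abs_of_nonneg (by linarith)]
    exact hdist
  have hcw : c + w₀ = s := by apply Complex.ext <;> simp [c, w₀]
  have hsub : ∀ w ∈ closedBall w₀ (δ / 2), ‖w‖ ≤ 5 / 2 * δ := fun w hw => by
    rw [mem_closedBall, dist_eq_norm] at hw
    have := norm_le_norm_add_norm_sub' w w₀
    linarith
  have hw₀mem : w₀ ∈ ball (0 : ℂ) (3 * δ) := mem_ball_zero_iff.2 (by linarith)
  have hd : DiffContOnCl ℂ φ (ball w₀ (δ / 2)) := by
    refine DifferentiableOn.diffContOnCl ?_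
    rw [closure_ball _ (by positivity)]
    exact fun w hw => (hder w (mem_ball_zero_iff.2
      (by linarith [hsub w hw]))).differentiableAt.differentiableWithinAt
  have key : ‖deriv φ w₀‖ ≤ 10 * L / (δ / 2) := by
    refine norm_deriv_le_of_forall_mem_sphere_norm_le (by positivity) hd fun w hw => ?_
    have hn := hsub w (sphere_subset_closedBall hw)
    refine (hφ w (mem_ball_zero_iff.2 (by linarith))).trans ?_
    rw [div_le_iff₀ (by linarith)]
    nlinarith [mul_le_mul_of_nonneg_left hn hL.le]
  rw [(hder w₀ hw₀mem).deriv] at key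
  simp only [f, deriv_comp_const_add, hcw] at key
  refine key.trans ?_
  have hz := zfrC_pos
  have hδd : δ = zfrC / (4 * H) := rfl
  rw [div_le_iff₀ (by positivity)]
  have eL : 10 * L ≤ 40 * (3 * P + 1) / zfrC * H ^ 2 := by
    have e1 : 3 * P * H / δ = 12 * P * H ^ 2 / zfrC := by rw [hδd]; field_simp; ring
    have e2 : 1 ≤ 4 * H ^ 2 / zfrC := by
      rw [le_div_iff₀ hz]; nlinarith [zfrC_le]
    have e3 : 40 * (3 * P + 1) / zfrC * H ^ 2 = 10 * (12 * P * H ^ 2 / zfrC) + 10 * (4 * H ^ 2 / zfrC) := by
      ring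
    simp only [L, e1, e3]
    linarith
  refine eL.trans (le_of_eq ?_)
  rw [derivB, hδd]
  field_simp
  ring

variable {E : ℂ → ℂ} (hE : Differentiable ℂ E)
  (hEL : ∀ s : ℂ, 1 < s.re → E s = (s - 1) * dedekindZeta K s)

/-- The constant in the two bounds. -/
def goodP : ℝ := 2 * growA + 20

theorem goodP_nonneg : 0 ≤ goodP := by
  have := eulerConst_nonneg 5
  rw [goodP, growA]; linarith

include hE hEL in
theorem norm_cleared_le {z : ℂ} (hz : z.re ∈ Icc (-4) 5) :
    ‖E z‖ ≤ Real.exp (growA * height K z.im) := by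
  rcases eq_or_ne (E z) 0 with h | h
  · rw [h, norm_zero]; positivity
  rw [← Real.log_le_iff_le_exp (norm_pos_iff.2 h)]
  exact (le_max_right _ _).trans (posLog_cleared_le K hE hEL hz)

include hEL in
theorem neg_log_cleared_le_div {z : ℂ} (h1 : 1 < z.re) (h3 : z.re ≤ 3) :
    -Real.log ‖E z‖ ≤ 11 * height K z.im / (z.re - 1) := by
  have hd : 0 < z.re - 1 := by linarith
  have hre : z.re - 1 ≤ ‖z - 1‖ := le_trans (by simp) (re_le_norm (z - 1))
  have hz := (norm_dedekindZeta_bounds (K := K) h1).1
  have hz0 : 0 < ‖dedekindZeta K z‖ := (Real.exp_pos _).trans_le hz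
  have hlz := Real.log_le_log (Real.exp_pos _) hz
  rw [Real.log_exp] at hlz
  have hl1 : 1 - (z.re - 1)⁻¹ ≤ Real.log ‖z - 1‖ :=
    (Real.one_sub_inv_le_log_of_pos hd).trans (Real.log_le_log hd hre)
  rw [hEL z h1, norm_mul, Real.log_mul (by linarith) hz0.ne', le_div_iff₀ hd]
  have hn := finrank_le_height K z.im
  have hH := one_le_height K z.im
  have hn0 : (0 : ℝ) ≤ finrank ℚ K := Nat.cast_nonneg _
  have he := mul_le_mul_of_nonneg_left (eulerConst_le h1) hn0
  have e1 : ((finrank ℚ K : ℝ) * (2 / (z.re - 1) + 4)) * (z.re - 1) =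
      2 * finrank ℚ K + 4 * (finrank ℚ K * (z.re - 1)) := by field_simp
  have e2 : (z.re - 1)⁻¹ * (z.re - 1) = 1 := inv_mul_cancel₀ hd.ne'
  nlinarith [mul_le_mul_of_nonneg_right he hd.le, mul_le_mul_of_nonneg_right hlz hd.le,
    mul_le_mul_of_nonneg_right hl1 hd.le, mul_le_mul_of_nonneg_left (show z.re - 1 ≤ 2 by linarith) hn0]

include hE hEL in
/-- Without an exceptional zero. -/
theorem isGood_cleared (hno : ∀ z : ℂ, 1 - zfrC / height K z.im ≤ z.re → E z ≠ 0) :
    IsGood K E goodP where
  diff := hE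
  ne_zero := hno
  upper z hz := (norm_cleared_le hE hEL ⟨by linarith [hz.1], by linarith [hz.2]⟩).trans
    (Real.exp_le_exp.2 (mul_le_mul_of_nonneg_right
      (by have := eulerConst_nonneg 5; rw [goodP, growA]; linarith)
      (zero_le_one.trans (one_le_height K _))))
  lower z h1 h3 := (neg_log_cleared_le_div hEL h1 h3).trans (div_le_div_of_nonneg_right
    (mul_le_mul_of_nonneg_right (by have := eulerConst_nonneg 5; rw [goodP, growA]; linarith)
      (zero_le_one.trans (one_le_height K _))) (by linarith))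

include hE hEL in
/-- With the exceptional zero divided out. -/
theorem isGood_dslope {β : ℝ} (hβ : 1 - zfrC / height K 0 ≤ β) (h0 : E (β : ℂ) = 0) :
    IsGood K (dslope E (β : ℂ)) goodP := by
  have hβ1 : β < 1 := not_le.1 fun h => cleared_ne_zero hE hEL (by simpa using h) h0
  have hzone : 1 - zfrC / height K (β : ℂ).im ≤ (β : ℂ).re := by simpa using hβ
  obtain ⟨-, hder, huniq⟩ := zero_free hE hEL h0 hzone
  have hβ0 : 3 / 4 ≤ β := by
    have := div_le_self zfrC_pos.le (one_le_height K 0)
    linarith [zfrC_le]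
  have hfac : ∀ z, E z = (z - β) * dslope E (β : ℂ) z := fun z => by
    rw [← smul_eq_mul, sub_smul_dslope, h0, sub_zero]
  have hA := eulerConst_nonneg 5
  have hg : Differentiable ℂ (dslope E (β : ℂ)) :=
    differentiableOn_univ.1 ((differentiableOn_dslope Filter.univ_mem).2 hE.differentiableOn)
  refine ⟨hg, fun z hz h => ?_, fun z hz => ?_, fun z h1 h3 => ?_⟩
  · have hzβ : z = β := huniq z (by rw [hfac, h, mul_zero]) hz
    rw [hzβ, dslope_same] at h
    exact hder h
  · have hH := one_le_height K z.im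
    rcases le_or_gt (1 / 4) ‖z - β‖ with h | h
    · have hb := norm_cleared_le hE hEL (z := z) ⟨by linarith [hz.1], by linarith [hz.2]⟩
      rw [hfac z, norm_mul] at hb
      have hP : Real.exp (growA * height K z.im) * 4 ≤ Real.exp (goodP * height K z.im) := by
        have h4 : (4 : ℝ) ≤ Real.exp (20 * height K z.im) :=
          le_trans (by linarith) (Real.add_one_le_exp _)
        refine (mul_le_mul_of_nonneg_left h4 (Real.exp_pos _).le).trans ?_
        rw [← Real.exp_add]
        refine Real.exp_le_exp.2 ?_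
        rw [goodP, growA]
        nlinarith
      have := mul_le_mul_of_nonneg_right h (norm_nonneg (dslope E (β : ℂ) z))
      linarith
    · have hd : DiffContOnCl ℂ (dslope E (β : ℂ)) (ball (β : ℂ) (1 / 4)) := hg.diffContOnCl
      refine norm_le_of_forall_mem_frontier_norm_le isBounded_ball hd (fun w hw => ?_) ?_
      · rw [frontier_ball _ (by norm_num), mem_sphere, dist_eq_norm] at hw
        have hr := abs_le.1 ((abs_re_le_norm (w - β)).trans hw.le)
        have hi := abs_le.1 ((abs_im_le_norm (w - β)).trans hw.le)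
        simp only [sub_re, ofReal_re, sub_im, ofReal_im, sub_zero] at hr hi
        have hb := norm_cleared_le hE hEL (z := w) ⟨by linarith, by linarith⟩
        rw [hfac w, norm_mul, hw] at hb
        have hh : height K w.im ≤ 2 * height K z.im := height_le_two_mul K (Or.inl (by
          have := abs_le.2 hi
          linarith [abs_nonneg z.im]))
        have h4 : (4 : ℝ) ≤ Real.exp (20 * height K z.im) :=
          le_trans (by linarith) (Real.add_one_le_exp _)
        calc ‖dslope E (β : ℂ) w‖ ≤ 4 * Real.exp (growA * height K w.im) := by linarith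
          _ ≤ Real.exp (20 * height K z.im) * Real.exp (growA * (2 * height K z.im)) := by
            gcongr; rw [growA]; linarith
          _ = _ := by rw [← Real.exp_add, goodP]; ring_nf
      · rw [closure_ball _ (by norm_num), mem_closedBall, dist_eq_norm]; exact h.le
  · have hH := one_le_height K z.im
    have hb := neg_log_cleared_le_div hEL h1 h3
    have hne : E z ≠ 0 := cleared_ne_zero hE hEL h1.le
    rw [hfac z, mul_ne_zero_iff] at hne
    rw [hfac z, norm_mul, Real.log_mul (norm_ne_zero_iff.2 hne.1) (norm_ne_zero_iff.2 hne.2)] at hb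
    have hn : ‖z - β‖ ≤ 3 + |z.im| := by
      refine (norm_le_abs_re_add_abs_im _).trans ?_
      simp only [sub_re, ofReal_re, sub_im, ofReal_im, sub_zero]
      rw [abs_of_pos (by linarith)]
      linarith
    have hl : Real.log ‖z - β‖ ≤ height K z.im := by
      refine (Real.log_le_log (norm_pos_iff.2 hne.1) hn).trans ?_
      have h1n : (1 : ℝ) ≤ finrank ℚ K := Nat.one_le_cast.2 finrank_pos
      have hD : 0 ≤ Real.log (((discr K).natAbs : ℕ) : ℝ) :=
        Real.log_nonneg (Nat.one_le_cast.2 (Int.natAbs_pos.2 (discr_ne_zero K)))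
      have hlg := le_mul_of_one_le_left (Real.log_nonneg (by linarith [abs_nonneg z.im] :
        (1 : ℝ) ≤ |z.im| + 3)) h1n
      rw [height, add_comm 3 |z.im|]
      linarith
    have hd : 0 < z.re - 1 := by linarith
    have e : 2 * height K z.im ≤ 4 * height K z.im / (z.re - 1) := by
      rw [le_div_iff₀ hd]; nlinarith
    have e2 : 11 * height K z.im / (z.re - 1) + 4 * height K z.im / (z.re - 1) ≤
        goodP * height K z.im / (z.re - 1) := by
      rw [← add_div, ← add_mul]
      gcongr
      rw [goodP, growA]; linarith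
    linarith

end FA.DedekindPIT
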