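import Fermat.Agent.DedekindPrimeIdeals.Dirichlet

/-!
# The first moment of `mangoldtK - w`

The shift of the line with `T = exp √(log x / n)` bounds `∑_{m ≤ x} (Λ_K m - w m) (x - m)` by
`O (L₀ ^ 3 x ^ 2 exp (- c gauge x))`, `gauge x = log x / (1 + log |d| + 2 n + √(n log x))`.
-/

set_option autoImplicit false
set_option linter.style.haveILetI false

noncomputable section

universe u

open NumberField Module Complex
open FA.DedekindZF
open scoped Real Classical

namespace FA.DedekindPIT

variable (K : Type u) [Field K] [NumberField K]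

/-- `1 + log |d| + 2 n + √(n log x)`. -/
def gaugeD (x : ℝ) : ℝ :=
  1 + Real.log (((discr K).natAbs : ℕ) : ℝ) + 2 * finrank ℚ K + √(finrank ℚ K * Real.log x)

/-- The exponent of the error term. -/
def gauge (x : ℝ) : ℝ := Real.log x / gaugeD K x

theorem one_le_gaugeD (x : ℝ) : 1 ≤ gaugeD K x := by
  have hD : 0 ≤ Real.log (((discr K).natAbs : ℕ) : ℝ) :=
    Real.log_nonneg (Nat.one_le_cast.2 (Int.natAbs_pos.2 (discr_ne_zero K)))
  have h1 := Real.sqrt_nonneg (finrank ℚ K * Real.log x)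
  have h2 : (0 : ℝ) ≤ finrank ℚ K := Nat.cast_nonneg _
  rw [gaugeD]; linarith

theorem height_exp_le {u : ℝ} (hu : 0 ≤ u) :
    height K (Real.exp u) ≤ 1 + Real.log (((discr K).natAbs : ℕ) : ℝ) + finrank ℚ K * (u + 2) := by
  refine add_le_add le_rfl (mul_le_mul_of_nonneg_left ?_ (Nat.cast_nonneg _))
  rw [abs_of_pos (Real.exp_pos u), Real.log_le_iff_le_exp (by positivity), Real.exp_add]
  have h4 : (4 : ℝ) ≤ Real.exp 2 := by
    rw [show (2 : ℝ) = 1 + 1 by norm_num, Real.exp_add]
    nlinarith [Real.exp_one_gt_d9]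
  nlinarith [Real.one_le_exp hu]

/-- **The moment.** -/
theorem exists_moment_le : ∃ a C : ℝ, 0 < a ∧ a ≤ 1 ∧ 0 ≤ C ∧
    ∀ (K : Type u) [Field K] [NumberField K] (g : ℂ → ℂ) (w : ℕ → ℝ) (r : ℂ → ℂ),
      MainTerm K g w r → ∀ x : ℝ, 3 ≤ x →
        |∑ n ∈ Finset.Icc 1 ⌊x⌋₊, (mangoldtK K n - w n) * (x - n)| ≤
          C * height K 0 ^ 3 * x ^ 2 * Real.exp (-(a * gauge K x)) := by
  obtain ⟨C₁, hC₁, hF⟩ := exists_region_bound.{u}
  obtain ⟨S, hS, hshift⟩ := SiegelWalfisz.exists_norm_smoothSum_le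
  have hz := zfrC_pos
  have hz' := zfrC_le
  refine ⟨zfrC / 4, 2 * S * C₁, by positivity, by linarith, by positivity,
    fun K _ _ g w r hM x hx => ?_⟩
  have hx0 : 0 < x := by linarith
  have hlog : 0 ≤ Real.log x := Real.log_nonneg (by linarith)
  have hn : (1 : ℝ) ≤ finrank ℚ K := Nat.one_le_cast.2 finrank_pos
  set u := √(Real.log x / finrank ℚ K)
  have hu : 0 ≤ u := Real.sqrt_nonneg _
  set T := Real.exp u
  have hD := one_le_gaugeD K x
  have hnu : (finrank ℚ K : ℝ) * u = √(finrank ℚ K * Real.log x) := by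
    rw [show (finrank ℚ K : ℝ) * Real.log x = (finrank ℚ K : ℝ) ^ 2 * (Real.log x / finrank ℚ K) by
      field_simp, Real.sqrt_mul (sq_nonneg _), Real.sqrt_sq (by linarith)]
  have hHT : height K T ≤ gaugeD K x := (height_exp_le K hu).trans (le_of_eq (by
    rw [gaugeD, mul_add, hnu]; ring))
  have hHT0 : 0 < height K T := zero_lt_one.trans_le (one_le_height K T)
  set σ₁ := 1 - zfrC / (4 * height K T)
  have hσ₁ : 1 / 2 ≤ σ₁ ∧ σ₁ ≤ 1 := by
    have := width_le K T
    have := width_pos K T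
    simp only [σ₁, width] at *
    constructor <;> linarith
  have hH : 0 ≤ C₁ * height K 0 ^ 3 := mul_nonneg hC₁ (pow_nonneg (zero_le_one.trans (one_le_height K 0)) 3)
  have h := hshift (fun n => ((mangoldtK K n - w n : ℝ) : ℂ)) (fun s => -(deriv g s / g s) - r s) x T σ₁
    (C₁ * height K 0 ^ 3) hx (Real.one_le_exp hu) hσ₁.1 hσ₁.2 hH
    (fun σ hσ => (hM.series σ (by simpa using hσ)).1) (fun s hs => (hM.series s hs).2) fun σ y hσy hσ2 => by
      have him : ((σ : ℂ) + y * I).im = y := by simp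
      have hre : ((σ : ℂ) + y * I).re = σ := by simp
      have := hF K g w r hM ((σ : ℂ) + y * I) (by
        rw [him, hre]
        rcases hσy with ⟨hy, hσ⟩ | hσ
        · have hm : height K y ≤ height K T := by
            refine add_le_add le_rfl (mul_le_mul_of_nonneg_left
              (Real.log_le_log (by positivity) ?_) (Nat.cast_nonneg _))
            rw [abs_of_pos (Real.exp_pos u)]
            linarith
          have hwd : zfrC / (4 * height K T) ≤ width K y :=
            div_le_div_of_nonneg_left hz.le (by have := one_le_height K y; positivity) (by linarith)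
          simp only [σ₁] at hσ
          linarith
        · linarith [width_pos K y]) (by rw [hre]; exact hσ2)
      rw [him] at this
      exact this
  have hmom : ((∑ n ∈ Finset.Icc 1 ⌊x⌋₊, (mangoldtK K n - w n) * (x - n) : ℝ) : ℂ) =
      (x : ℂ) * SiegelWalfisz.smoothSum (fun n => ((mangoldtK K n - w n : ℝ) : ℂ)) x := by
    rw [SiegelWalfisz.smoothSum, Finset.mul_sum, ofReal_sum]
    refine Finset.sum_congr rfl fun n _ => ?_
    have : (x : ℂ) ≠ 0 := ofReal_ne_zero.2 hx0.ne'
    push_cast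
    field_simp
  rw [← Real.norm_eq_abs, ← Complex.norm_real, hmom, norm_mul, norm_real, Real.norm_of_nonneg hx0.le]
  refine (mul_le_mul_of_nonneg_left h hx0.le).trans ?_
  have e1 : x ^ (σ₁ - 1) ≤ Real.exp (-(zfrC / 4 * gauge K x)) := by
    rw [Real.rpow_def_of_pos hx0]
    refine Real.exp_le_exp.2 ?_
    have h9 := mul_le_mul_of_nonneg_left
      (div_le_div_of_nonneg_left hz.le (by positivity) (show 4 * height K T ≤ 4 * gaugeD K x by linarith))
      hlog
    have h10 : zfrC / 4 * gauge K x = Real.log x * (zfrC / (4 * gaugeD K x)) := by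
      rw [gauge]; field_simp
    simp only [σ₁]
    linarith
  have e2 : T ^ (-(1 / 2) : ℝ) ≤ Real.exp (-(zfrC / 4 * gauge K x)) := by
    rw [← Real.exp_mul]
    refine Real.exp_le_exp.2 ?_
    have hgu : gauge K x ≤ u := by
      rw [gauge, div_le_iff₀ (by linarith)]
      have hu2 : (finrank ℚ K : ℝ) * u ^ 2 = Real.log x := by
        rw [Real.sq_sqrt (by positivity)]
        field_simp
      have hge : (finrank ℚ K : ℝ) * u ≤ gaugeD K x := by
        rw [hnu, gaugeD]
        have hd : 0 ≤ Real.log (((discr K).natAbs : ℕ) : ℝ) :=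
          Real.log_nonneg (Nat.one_le_cast.2 (Int.natAbs_pos.2 (discr_ne_zero K)))
        linarith
      nlinarith [mul_le_mul_of_nonneg_left hge hu]
    have := mul_le_mul_of_nonneg_left hgu (show 0 ≤ zfrC / 4 by positivity)
    have := mul_le_mul_of_nonneg_right (show zfrC / 4 ≤ 1 / 2 by linarith) hu
    linarith
  have hp : 0 ≤ S * (C₁ * height K 0 ^ 3) * x * x := by positivity
  calc x * (S * (C₁ * height K 0 ^ 3) * x * (x ^ (σ₁ - 1) + T ^ (-(1 / 2) : ℝ)))
      = S * (C₁ * height K 0 ^ 3) * x * x * (x ^ (σ₁ - 1) + T ^ (-(1 / 2) : ℝ)) := by ring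
    _ ≤ S * (C₁ * height K 0 ^ 3) * x * x * (2 * Real.exp (-(zfrC / 4 * gauge K x))) :=
        mul_le_mul_of_nonneg_left (by linarith) hp
    _ = _ := by ring

end FA.DedekindPIT
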